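import Mathlib

/-!
# JAC / Lift / Nil70 : nilpotent Nakayama and base change along a nilpotent thickening

`R → R'` is a surjective ring homomorphism (given as an algebra structure) whose kernel is a
nilpotent ideal.  Then the base change functor `R' ⊗[R] -` detects zero modules, surjectivity,
and (for projective targets) bijectivity of linear maps.  No finiteness hypotheses are needed.

Main statements:

* `eq_bot_of_le_smul_of_isNilpotent` : `N ≤ I • N` with `I` nilpotent forces `N = ⊥`.
* `subsingleton_of_subsingleton_tensor` : `R' ⊗[R] M = 0 → M = 0`.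
* `surjective_of_baseChange_surjective`.
* `bijective_of_baseChange_bijective` (target projective).
-/

set_option autoImplicit false

open TensorProduct

namespace Fermat.Agent.JAC.Lift.Nil70

section Nakayama

variable {R : Type*} [CommRing R] {M : Type*} [AddCommGroup M] [Module R M]

/-- Nakayama's lemma for a nilpotent ideal: no finiteness assumption is needed. -/
theorem eq_bot_of_le_smul_of_isNilpotent (I : Ideal R) (hI : IsNilpotent I)
    (N : Submodule R M) (h : N ≤ I • N) : N = ⊥ := by
  obtain ⟨n, hn⟩ := hI
  have key : ∀ k : ℕ, N ≤ I ^ k • N := by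
    intro k
    induction k with
    | zero => simp
    | succ k ih =>
      calc N ≤ I ^ k • N := ih
        _ ≤ I ^ k • (I • N) := Submodule.smul_mono le_rfl h
        _ = I ^ (k + 1) • N := by rw [← Submodule.mul_smul, pow_succ]
  have h1 := key n
  rw [hn] at h1
  have h2 : ((0 : Ideal R) • N : Submodule R M) = ⊥ := Submodule.bot_smul N
  rw [h2] at h1
  exact le_bot_iff.mp h1

/-- If `I • ⊤ = ⊤` for a nilpotent ideal `I` then the module is trivial. -/
theorem subsingleton_of_smul_top_eq_top (I : Ideal R) (hI : IsNilpotent I)
    (h : (I • ⊤ : Submodule R M) = ⊤) : Subsingleton M := by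
  have h1 : (⊤ : Submodule R M) = ⊥ :=
    eq_bot_of_le_smul_of_isNilpotent I hI ⊤ (le_of_eq h.symm)
  have : Subsingleton (Submodule R M) := subsingleton_of_bot_eq_top h1.symm
  exact (Submodule.subsingleton_iff R).mp this

end Nakayama

section BaseChange

variable {R R' : Type*} [CommRing R] [CommRing R'] [Algebra R R']

/-- For a surjective `R → R'` with kernel `I`, `R' ⊗[R] M ≃ M ⧸ I • ⊤`. -/
theorem ker_ofId : RingHom.ker (Algebra.ofId R R') = RingHom.ker (algebraMap R R') := rfl

/-- The quotient of `R` by the kernel of a surjective `algebraMap R R'` is `R'`. -/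
noncomputable def quotKerEquiv (hsurj : Function.Surjective (algebraMap R R')) :
    (R ⧸ RingHom.ker (algebraMap R R')) ≃ₐ[R] R' :=
  Ideal.quotientKerAlgEquivOfSurjective (f := Algebra.ofId R R') hsurj

noncomputable def tensorEquivQuotSMul (hsurj : Function.Surjective (algebraMap R R'))
    (M : Type*) [AddCommGroup M] [Module R M] :
    (R' ⊗[R] M) ≃ₗ[R] M ⧸ (RingHom.ker (algebraMap R R') • ⊤ : Submodule R M) :=
  (TensorProduct.congr (quotKerEquiv hsurj).symm.toLinearEquiv (LinearEquiv.refl R M)) ≪≫ₗ
    TensorProduct.quotTensorEquivQuotSMul M (RingHom.ker (algebraMap R R'))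

theorem tensorEquivQuotSMul_one_tmul (hsurj : Function.Surjective (algebraMap R R'))
    {M : Type*} [AddCommGroup M] [Module R M] (m : M) :
    tensorEquivQuotSMul hsurj M (1 ⊗ₜ m) = Submodule.Quotient.mk m := by
  unfold tensorEquivQuotSMul
  rw [LinearEquiv.trans_apply, TensorProduct.congr_tmul, LinearEquiv.refl_apply,
    AlgEquiv.toLinearEquiv_apply, map_one]
  exact TensorProduct.quotTensorEquivQuotSMul_mk_one_tmul _ m

variable (hsurj : Function.Surjective (algebraMap R R'))
  (hnil : IsNilpotent (RingHom.ker (algebraMap R R')))

include hsurj hnil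

/-- Base change along a nilpotent thickening detects the zero module. -/
theorem subsingleton_of_subsingleton_tensor (M : Type*) [AddCommGroup M] [Module R M]
    [Subsingleton (R' ⊗[R] M)] : Subsingleton M := by
  have h1 : Subsingleton (M ⧸ (RingHom.ker (algebraMap R R') • ⊤ : Submodule R M)) :=
    (tensorEquivQuotSMul hsurj M).symm.toEquiv.subsingleton
  exact subsingleton_of_smul_top_eq_top _ hnil (Submodule.Quotient.subsingleton_iff.mp h1)

/-- Base change along a nilpotent thickening detects surjectivity. -/
theorem surjective_of_baseChange_surjective {M N : Type*} [AddCommGroup M] [Module R M]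
    [AddCommGroup N] [Module R N] (f : M →ₗ[R] N)
    (hf : Function.Surjective (f.baseChange R')) : Function.Surjective f := by
  -- the cokernel of `f` dies after base change
  have hex : Function.Exact (f.baseChange R') ((LinearMap.range f).mkQ.baseChange R') := by
    have := lTensor_exact R' (LinearMap.exact_map_mkQ_range f) (Submodule.mkQ_surjective _)
    exact this
  have hsub : Subsingleton (R' ⊗[R] (N ⧸ LinearMap.range f)) := by
    refine ⟨fun a b => ?_⟩
    have hs : Function.Surjective ((LinearMap.range f).mkQ.baseChange R') :=
      LinearMap.lTensor_surjective R' (Submodule.mkQ_surjective _)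
    obtain ⟨a', rfl⟩ := hs a
    obtain ⟨b', rfl⟩ := hs b
    obtain ⟨a'', rfl⟩ := hf a'
    obtain ⟨b'', rfl⟩ := hf b'
    rw [hex.apply_apply_eq_zero, hex.apply_apply_eq_zero]
  have := subsingleton_of_subsingleton_tensor hsurj hnil (N ⧸ LinearMap.range f)
  rw [← LinearMap.range_eq_top]
  exact Submodule.Quotient.subsingleton_iff.mp this

/-- Base change along a nilpotent thickening detects bijectivity when the target is projective. -/
theorem bijective_of_baseChange_bijective {M N : Type*} [AddCommGroup M] [Module R M]
    [AddCommGroup N] [Module R N] [Module.Projective R N] (f : M →ₗ[R] N)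
    (hf : Function.Bijective (f.baseChange R')) : Function.Bijective f := by
  have hfs : Function.Surjective f := surjective_of_baseChange_surjective hsurj hnil f hf.2
  obtain ⟨σ, hσ⟩ := Module.projective_lifting_property f LinearMap.id hfs
  -- `σ` is a section of `f`; its base change is inverse to the bijection `f.baseChange R'`
  have h1 : (f.baseChange R') ∘ₗ (σ.baseChange R') = LinearMap.id := by
    rw [← LinearMap.baseChange_comp, hσ, LinearMap.baseChange_id]
  have hσs : Function.Surjective (σ.baseChange R') := by
    intro x
    refine ⟨f.baseChange R' x, hf.1 ?_⟩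
    have := congrArg (fun g => g (f.baseChange R' x)) h1
    simpa using this
  have hσ' : Function.Surjective σ := surjective_of_baseChange_surjective hsurj hnil σ hσs
  refine ⟨fun a b hab => ?_, hfs⟩
  obtain ⟨a', rfl⟩ := hσ' a
  obtain ⟨b', rfl⟩ := hσ' b
  have ha : f (σ a') = a' := congrArg (fun g => g a') hσ
  have hb : f (σ b') = b' := congrArg (fun g => g b') hσ
  rw [ha, hb] at hab
  rw [hab]

/-- A linear map between projective modules whose base change along a nilpotent thickening
is an isomorphism is an isomorphism. -/
noncomputable def linearEquivOfBaseChangeBijective {M N : Type*} [AddCommGroup M] [Module R M]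
    [AddCommGroup N] [Module R N] [Module.Projective R N] (f : M →ₗ[R] N)
    (hf : Function.Bijective (f.baseChange R')) : M ≃ₗ[R] N :=
  LinearEquiv.ofBijective f (bijective_of_baseChange_bijective hsurj hnil f hf)

end BaseChange

end Fermat.Agent.JAC.Lift.Nil70
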