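import Mathlib
import Fermat.Agent.JAC.Lift.Nil70

/-!
# JAC / Lift / ProjLift70 : lifting projective modules and their maps along nilpotent thickenings

`R → R'` surjective with nilpotent kernel.

* `exists_lift_linearMap` : for `P` projective over `R`, every `R'`-linear map
  `R' ⊗[R] P → R' ⊗[R] Q` is the base change of an `R`-linear map `P → Q`.
* `exists_linearEquiv_lift` : for `P`, `Q` projective, every `R'`-linear isomorphism
  `R' ⊗[R] P ≃ R' ⊗[R] Q` is the base change of an `R`-linear isomorphism `P ≃ Q`.
* `exists_projective_lift` : every finitely generated projective `R'`-module is the base change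
  of a finitely generated projective `R`-module.
-/

set_option autoImplicit false

open TensorProduct

namespace Fermat.Agent.JAC.Lift.ProjLift70

open Fermat.Agent.JAC.Lift.Nil70

section Maps

variable {R R' : Type*} [CommRing R] [CommRing R'] [Algebra R R']
  (hsurj : Function.Surjective (algebraMap R R'))

include hsurj in
/-- Maps out of a projective module lift along a surjective base change. -/
theorem exists_lift_linearMap {P Q : Type*} [AddCommGroup P] [Module R P] [AddCommGroup Q]
    [Module R Q] [Module.Projective R P] (g : R' ⊗[R] P →ₗ[R'] R' ⊗[R] Q) :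
    ∃ f : P →ₗ[R] Q, f.baseChange R' = g := by
  have hmk : Function.Surjective (TensorProduct.mk R R' Q 1) :=
    TensorProduct.mk_surjective R Q R' hsurj
  obtain ⟨f, hf⟩ := Module.projective_lifting_property (TensorProduct.mk R R' Q 1)
    ((g.restrictScalars R) ∘ₗ (TensorProduct.mk R R' P 1)) hmk
  refine ⟨f, ?_⟩
  apply TensorProduct.AlgebraTensorModule.ext
  intro a p
  have h1 : (a ⊗ₜ[R] p : R' ⊗[R] P) = a • ((1 : R') ⊗ₜ[R] p) := by
    rw [TensorProduct.smul_tmul', smul_eq_mul, mul_one]
  have h2 : (1 : R') ⊗ₜ[R] f p = g ((1 : R') ⊗ₜ[R] p) := by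
    have := congrArg (fun φ => φ p) hf
    simpa using this
  rw [h1, map_smul, map_smul, LinearMap.baseChange_tmul, h2]

variable (hnil : IsNilpotent (RingHom.ker (algebraMap R R')))

include hsurj hnil in
/-- Isomorphisms between base changes of projective modules lift along a nilpotent thickening:
projective lifts are unique up to isomorphism. -/
theorem exists_linearEquiv_lift {P Q : Type*} [AddCommGroup P] [Module R P] [AddCommGroup Q]
    [Module R Q] [Module.Projective R P] [Module.Projective R Q]
    (g : R' ⊗[R] P ≃ₗ[R'] R' ⊗[R] Q) :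
    ∃ f : P ≃ₗ[R] Q, (f : P →ₗ[R] Q).baseChange R' = g := by
  obtain ⟨f, hf⟩ := exists_lift_linearMap hsurj (g : R' ⊗[R] P →ₗ[R'] R' ⊗[R] Q)
  have hb : Function.Bijective (f.baseChange R') := by
    rw [hf]
    exact g.bijective
  refine ⟨LinearEquiv.ofBijective f (bijective_of_baseChange_bijective hsurj hnil f hb), ?_⟩
  rw [← hf]
  rfl

end Maps

section Matrices

variable {R : Type*} [CommRing R] {n : Type*} [Fintype n] [DecidableEq n]

/-- Powers of a matrix with entries in `I` have entries in the powers of `I`. -/
theorem pow_apply_mem_pow (I : Ideal R) (A : Matrix n n R) (hA : ∀ i j, A i j ∈ I) (k : ℕ) :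
    ∀ i j, (A ^ k) i j ∈ I ^ k := by
  induction k with
  | zero => intro i j; simp
  | succ k ih =>
    intro i j
    rw [pow_succ A, Matrix.mul_apply, pow_succ I]
    exact Ideal.sum_mem _ fun l _ => Ideal.mul_mem_mul (ih i l) (hA l j)

variable {R' : Type*} [CommRing R'] [Algebra R R']

theorem isNilpotent_of_mem_ker_mapMatrix
    (hnil : IsNilpotent (RingHom.ker (algebraMap R R')))
    (A : Matrix n n R) (hA : A ∈ RingHom.ker ((algebraMap R R').mapMatrix (m := n))) :
    IsNilpotent A := by
  obtain ⟨k, hk⟩ := hnil
  refine ⟨k, ?_⟩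
  have hent : ∀ i j, A i j ∈ RingHom.ker (algebraMap R R') := by
    intro i j
    rw [RingHom.mem_ker] at hA ⊢
    have := congrFun (congrFun hA i) j
    simpa using this
  ext i j
  have := pow_apply_mem_pow _ A hent k i j
  rw [hk] at this
  simpa using this

theorem mapMatrix_surjective (hsurj : Function.Surjective (algebraMap R R')) :
    Function.Surjective ((algebraMap R R').mapMatrix (m := n)) := by
  intro B
  refine ⟨Matrix.of fun i j => Classical.choose (hsurj (B i j)), ?_⟩
  ext i j
  simp [Classical.choose_spec (hsurj (B i j))]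

/-- Idempotent matrices lift along a nilpotent thickening. -/
theorem exists_idempotent_matrix_lift (hsurj : Function.Surjective (algebraMap R R'))
    (hnil : IsNilpotent (RingHom.ker (algebraMap R R')))
    (E' : Matrix n n R') (hE' : IsIdempotentElem E') :
    ∃ E : Matrix n n R, IsIdempotentElem E ∧ E.map (algebraMap R R') = E' := by
  obtain ⟨E, hE, hEE'⟩ := exists_isIdempotentElem_eq_of_ker_isNilpotent
    ((algebraMap R R').mapMatrix (m := n))
    (fun A hA => isNilpotent_of_mem_ker_mapMatrix hnil A hA) E'
    (RingHom.mem_range.mpr (mapMatrix_surjective hsurj E')) hE'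
  exact ⟨E, hE, by simpa using hEE'⟩

/-- Base change of `Matrix.toLin'` is `Matrix.toLin'` of the mapped matrix, under the
identification `R' ⊗[R] (n → R) ≃ (n → R')`. -/
theorem piScalarRight_baseChange_toLin' (A : Matrix n n R) (x : R' ⊗[R] (n → R)) :
    TensorProduct.piScalarRight R R' R' n ((Matrix.toLin' A).baseChange R' x) =
      Matrix.toLin' (A.map (algebraMap R R')) (TensorProduct.piScalarRight R R' R' n x) := by
  induction x using TensorProduct.induction_on with
  | zero => simp
  | add x y hx hy => simp only [map_add, hx, hy]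
  | tmul a v =>
    rw [LinearMap.baseChange_tmul]
    simp only [TensorProduct.piScalarRight_apply, TensorProduct.piScalarRightHom_tmul,
      Matrix.toLin'_apply]
    ext i
    simp only [Matrix.mulVec, dotProduct, Matrix.map_apply, Finset.sum_smul]
    refine Finset.sum_congr rfl fun j _ => ?_
    rw [Algebra.smul_def, Algebra.smul_def, map_mul]
    ring

end Matrices

section Lift

universe u v

variable {R : Type u} {R' : Type v} [CommRing R] [CommRing R'] [Algebra R R']

/-- The range of an idempotent endomorphism of `n → R` lifting (after base change) the idempotent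
`g' ∘ f'` attached to a presentation `f' ∘ g' = id` of `P'` is a lift of `P'`. -/
theorem nonempty_baseChange_range_equiv {n : Type*} [Fintype n] [DecidableEq n]
    {P' : Type*} [AddCommGroup P'] [Module R' P']
    (f' : (n → R') →ₗ[R'] P') (g' : P' →ₗ[R'] (n → R')) (hfg : f' ∘ₗ g' = LinearMap.id)
    (E : Matrix n n R) (hE : IsIdempotentElem E)
    (hEE' : E.map (algebraMap R R') = LinearMap.toMatrix' (g' ∘ₗ f')) :
    Nonempty (R' ⊗[R] (LinearMap.range (Matrix.toLin' E)) ≃ₗ[R'] P') := by
  set ε : (n → R) →ₗ[R] (n → R) := Matrix.toLin' E with hε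
  have hεε : ∀ x, ε (ε x) = ε x := by
    intro x
    have h1 : ε ∘ₗ ε = ε := by
      rw [hε, ← Matrix.toLin'_mul, hE.eq]
    exact congrArg (fun φ => φ x) h1
  let i : LinearMap.range ε →ₗ[R] (n → R) := (LinearMap.range ε).subtype
  let q : (n → R) →ₗ[R] LinearMap.range ε := ε.rangeRestrict
  have hiq : i ∘ₗ q = ε := by
    ext x j
    rfl
  have hqi : q ∘ₗ i = LinearMap.id := by
    ext ⟨x, hx⟩ j
    obtain ⟨y, rfl⟩ := hx
    exact congrFun (hεε y) j
  have hfg' : ∀ y, f' (g' y) = y := fun y => congrArg (fun φ => φ y) hfg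
  let ι := TensorProduct.piScalarRight R R' R' n
  have hK : ∀ x, ι (ε.baseChange R' x) = g' (f' (ι x)) := by
    intro x
    have := piScalarRight_baseChange_toLin' (R' := R') E x
    rw [hEE', Matrix.toLin'_toMatrix'] at this
    exact this
  let Φ : R' ⊗[R] (LinearMap.range ε) →ₗ[R'] P' :=
    f' ∘ₗ ι.toLinearMap ∘ₗ i.baseChange R'
  let Ψ : P' →ₗ[R'] R' ⊗[R] (LinearMap.range ε) :=
    q.baseChange R' ∘ₗ ι.symm.toLinearMap ∘ₗ g'
  have hiqB : ∀ x, i.baseChange R' (q.baseChange R' x) = ε.baseChange R' x := by
    intro x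
    rw [← LinearMap.comp_apply, ← LinearMap.baseChange_comp, hiq]
  have hqiB : ∀ x, q.baseChange R' (i.baseChange R' x) = x := by
    intro x
    rw [← LinearMap.comp_apply, ← LinearMap.baseChange_comp, hqi, LinearMap.baseChange_id,
      LinearMap.id_apply]
  refine ⟨LinearEquiv.ofLinearMap Φ Ψ ?_ ?_⟩
  · refine LinearMap.ext fun y => ?_
    change f' (ι (i.baseChange R' (q.baseChange R' (ι.symm (g' y))))) = y
    rw [hiqB, hK, LinearEquiv.apply_symm_apply, hfg', hfg']
  · refine LinearMap.ext fun x => ?_
    change q.baseChange R' (ι.symm (g' (f' (ι (i.baseChange R' x))))) = x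
    rw [← hK, LinearEquiv.symm_apply_apply, ← hiqB, hqiB, hqiB]

variable (hsurj : Function.Surjective (algebraMap R R'))
  (hnil : IsNilpotent (RingHom.ker (algebraMap R R')))

include hsurj hnil in
/-- **Lifting finitely generated projective modules along a nilpotent thickening.** -/
theorem exists_projective_lift (P' : Type*) [AddCommGroup P'] [Module R' P']
    [Module.Finite R' P'] [Module.Projective R' P'] :
    ∃ (P : Type u) (_ : AddCommGroup P) (_ : Module R P),
      Module.Finite R P ∧ Module.Projective R P ∧ Nonempty (R' ⊗[R] P ≃ₗ[R'] P') := by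
  obtain ⟨n, f', g', -, -, hfg⟩ := Module.Finite.exists_comp_eq_id_of_projective R' P'
  have hE' : IsIdempotentElem (LinearMap.toMatrix' (g' ∘ₗ f')) := by
    unfold IsIdempotentElem
    rw [← LinearMap.toMatrix'_comp]
    congr 1
    rw [LinearMap.comp_assoc, ← LinearMap.comp_assoc f' g' f', hfg, LinearMap.id_comp]
  obtain ⟨E, hE, hEE'⟩ := exists_idempotent_matrix_lift hsurj hnil _ hE'
  refine ⟨LinearMap.range (Matrix.toLin' E), inferInstance, inferInstance, ?_, ?_, ?_⟩
  · exact Module.Finite.range _
  · have hεε : ∀ x, Matrix.toLin' E (Matrix.toLin' E x) = Matrix.toLin' E x := by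
      intro x
      have h1 : Matrix.toLin' E ∘ₗ Matrix.toLin' E = Matrix.toLin' E := by
        rw [← Matrix.toLin'_mul, hE.eq]
      exact congrArg (fun φ => φ x) h1
    refine Module.Projective.of_split (LinearMap.range (Matrix.toLin' E)).subtype
      (Matrix.toLin' E).rangeRestrict ?_
    ext ⟨x, hx⟩ j
    obtain ⟨y, rfl⟩ := hx
    exact congrFun (hεε y) j
  · exact nonempty_baseChange_range_equiv f' g' hfg E hE hEE'

end Lift

end Fermat.Agent.JAC.Lift.ProjLift70
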