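import Mathlib
import Fermat.Agent.JAC.Lift.ProjLift70

/-!
# JAC / Lift / InvLift70 : lifting invertible modules along nilpotent thickenings

`R → R'` surjective with nilpotent kernel.

* `invertible_of_baseChange` : a projective `R`-module whose base change to `R'` is invertible,
  and which admits a projective "inverse candidate", is invertible.  In particular
* `exists_invertible_lift` : every invertible `R'`-module is the base change of an invertible
  `R`-module.
* `invertible_of_projective_of_baseChange_equiv` : a finitely generated projective `R`-module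
  whose base change is invertible is invertible.
-/

set_option autoImplicit false

open TensorProduct

namespace Fermat.Agent.JAC.Lift.InvLift70

open Fermat.Agent.JAC.Lift.Nil70 Fermat.Agent.JAC.Lift.ProjLift70

universe u v

variable {R : Type u} {R' : Type v} [CommRing R] [CommRing R'] [Algebra R R']
  (hsurj : Function.Surjective (algebraMap R R'))
  (hnil : IsNilpotent (RingHom.ker (algebraMap R R')))

include hsurj hnil

/-- If `M`, `N` are projective `R`-modules and `(R' ⊗ M) ⊗ (R' ⊗ N) ≃ R'`, then `M ⊗ N ≃ R`. -/
theorem nonempty_tensor_equiv_of_baseChange {M N : Type*} [AddCommGroup M] [Module R M]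
    [AddCommGroup N] [Module R N] [Module.Projective R M] [Module.Projective R N]
    (e : (R' ⊗[R] M) ⊗[R'] (R' ⊗[R] N) ≃ₗ[R'] R') : Nonempty (M ⊗[R] N ≃ₗ[R] R) := by
  let e1 : R' ⊗[R] (M ⊗[R] N) ≃ₗ[R'] R' ⊗[R] R :=
    (TensorProduct.AlgebraTensorModule.distribBaseChange R R' M N) ≪≫ₗ e ≪≫ₗ
      (TensorProduct.AlgebraTensorModule.rid R R' R').symm
  obtain ⟨f, -⟩ := exists_linearEquiv_lift hsurj hnil e1
  exact ⟨f⟩

/-- A projective module whose base change along a nilpotent thickening is invertible, with a
projective module lifting the inverse, is invertible. -/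
theorem invertible_of_baseChange {M N : Type*} [AddCommGroup M] [Module R M]
    [AddCommGroup N] [Module R N] [Module.Projective R M] [Module.Projective R N]
    (e : (R' ⊗[R] M) ⊗[R'] (R' ⊗[R] N) ≃ₗ[R'] R') : Module.Invertible R M := by
  obtain ⟨f⟩ := nonempty_tensor_equiv_of_baseChange hsurj hnil e
  exact Module.Invertible.left f

/-- **Lifting invertible modules along a nilpotent thickening.** -/
theorem exists_invertible_lift (M' : Type*) [AddCommGroup M'] [Module R' M']
    [Module.Invertible R' M'] :
    ∃ (M : Type u) (_ : AddCommGroup M) (_ : Module R M),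
      Module.Invertible R M ∧ Nonempty (R' ⊗[R] M ≃ₗ[R'] M') := by
  obtain ⟨M, _, _, _, _, ⟨eM⟩⟩ := exists_projective_lift hsurj hnil M'
  obtain ⟨N, _, _, _, _, ⟨eN⟩⟩ := exists_projective_lift hsurj hnil (Module.Dual R' M')
  refine ⟨M, inferInstance, inferInstance, ?_, ⟨eM⟩⟩
  refine invertible_of_baseChange hsurj hnil (N := N) ?_
  exact (TensorProduct.congr eM eN) ≪≫ₗ (TensorProduct.comm R' M' (Module.Dual R' M')) ≪≫ₗ
    Module.Invertible.linearEquiv R' M'

/-- A finitely generated projective `R`-module whose base change along a nilpotent thickening is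
invertible is invertible. -/
theorem invertible_of_invertible_baseChange (M : Type*) [AddCommGroup M] [Module R M]
    [Module.Projective R M] [Module.Invertible R' (R' ⊗[R] M)] : Module.Invertible R M := by
  obtain ⟨N, _, _, _, _, ⟨eN⟩⟩ :=
    exists_projective_lift hsurj hnil (Module.Dual R' (R' ⊗[R] M))
  refine invertible_of_baseChange hsurj hnil (N := N) ?_
  exact (TensorProduct.congr (LinearEquiv.refl R' _) eN) ≪≫ₗ
    (TensorProduct.comm R' (R' ⊗[R] M) (Module.Dual R' (R' ⊗[R] M))) ≪≫ₗ
    Module.Invertible.linearEquiv R' (R' ⊗[R] M)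

end Fermat.Agent.JAC.Lift.InvLift70
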