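import Mathlib
import Fermat.Agent.JAC.Lift.InvLift70

/-!
# JAC / Lift / DiagLift70 : lifting two-chart diagrams along nilpotent thickenings

Two "abstract families" in the sense of the JAC plan:

```
R0  → R01  ← R1          R0' → R01' ← R1'
```

with `R01 = R0[1/t] = R1[1/s]`, `R01' = R0'[1/t'] = R1'[1/s']`, and compatible surjections
`R0 → R0'`, `R1 → R1'`, `R01 → R01'` with nilpotent kernels (e.g. `R_i = B ⊗ A_i`,
`R_i' = (B ⧸ I) ⊗ A_i` with `I` nilpotent).  A *diagram* over the primed family is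
`M0' -ρ0'→ M01' ←ρ1'- M1'` with `M0'`, `M1'` invertible and `ρ0'`, `ρ1'` localisation maps.

* `sideEquiv` : the comparison isomorphism `R01' ⊗ (R01 ⊗[R_i] M_i) ≃ M01'` attached to a lift
  `R_i' ⊗ M_i ≃ M_i'` of one side.
* `exists_gluing_lift` : every diagram over the primed family lifts to the unprimed family, in
  "gluing form": invertible `M0`, `M1` and an `R01`-isomorphism
  `φ : R01 ⊗[R1] M1 ≃ R01 ⊗[R0] M0`, compatible with the given diagram.
* `DiagramLift`, `nonempty_diagramLift` : the same in "diagram form".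

There is no cocycle condition, so nothing else has to be lifted: this is formal smoothness of the
functor of (rigidified) line bundles in the two-chart model.
-/

set_option autoImplicit false

open TensorProduct

namespace Fermat.Agent.JAC.Lift.DiagLift70

open Fermat.Agent.JAC.Lift.Nil70 Fermat.Agent.JAC.Lift.ProjLift70
  Fermat.Agent.JAC.Lift.InvLift70

section Side

variable {A A' C C' : Type*} [CommRing A] [CommRing A'] [CommRing C] [CommRing C']
  [Algebra A A'] [Algebra A C] [Algebra C C'] [Algebra A' C'] [Algebra A C']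
  [IsScalarTower A C C'] [IsScalarTower A A' C']
  {M M' N' : Type*} [AddCommGroup M] [Module A M] [AddCommGroup M'] [Module A' M']
  [AddCommGroup N'] [Module C' N'] [Module A' N'] [IsScalarTower A' C' N']

/-- For a commutative square of rings `A → C`, `A → A'`, `C → C'`, `A' → C'`, an `A`-module `M`
with `e : A' ⊗[A] M ≃ M'` and a base change map `ρ' : M' → N'` along `A' → C'`, the module
`C ⊗[A] M` is a lift of `N'` along `C → C'`. -/
noncomputable def sideEquiv (e : A' ⊗[A] M ≃ₗ[A'] M') {ρ' : M' →ₗ[A'] N'}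
    (hρ' : IsBaseChange C' ρ') : C' ⊗[C] (C ⊗[A] M) ≃ₗ[C'] N' :=
  (TensorProduct.AlgebraTensorModule.cancelBaseChange A C C' C' M) ≪≫ₗ
    (TensorProduct.AlgebraTensorModule.cancelBaseChange A A' C' C' M).symm ≪≫ₗ
    (TensorProduct.AlgebraTensorModule.congr (LinearEquiv.refl C' C') e) ≪≫ₗ hρ'.equiv

theorem sideEquiv_tmul (e : A' ⊗[A] M ≃ₗ[A'] M') {ρ' : M' →ₗ[A'] N'}
    (hρ' : IsBaseChange C' ρ') (m : M) :
    sideEquiv e hρ' ((1 : C') ⊗ₜ[C] ((1 : C) ⊗ₜ[A] m)) = ρ' (e ((1 : A') ⊗ₜ[A] m)) := by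
  unfold sideEquiv
  simp only [LinearEquiv.trans_apply,
    TensorProduct.AlgebraTensorModule.cancelBaseChange_tmul, one_smul,
    TensorProduct.AlgebraTensorModule.cancelBaseChange_symm_tmul,
    TensorProduct.AlgebraTensorModule.congr_tmul, LinearEquiv.refl_apply,
    IsBaseChange.equiv_tmul]

end Side

section Gluing

universe u

variable {R0 R1 R01 R0' R1' R01' : Type u}
  [CommRing R0] [CommRing R1] [CommRing R01] [CommRing R0'] [CommRing R1'] [CommRing R01']
  [Algebra R0 R01] [Algebra R1 R01] [Algebra R0' R01'] [Algebra R1' R01']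
  [Algebra R0 R0'] [Algebra R1 R1'] [Algebra R01 R01']
  [Algebra R0 R01'] [IsScalarTower R0 R01 R01'] [IsScalarTower R0 R0' R01']
  [Algebra R1 R01'] [IsScalarTower R1 R01 R01'] [IsScalarTower R1 R1' R01']
  (hs0 : Function.Surjective (algebraMap R0 R0'))
  (hn0 : IsNilpotent (RingHom.ker (algebraMap R0 R0')))
  (hs1 : Function.Surjective (algebraMap R1 R1'))
  (hn1 : IsNilpotent (RingHom.ker (algebraMap R1 R1')))
  (hs01 : Function.Surjective (algebraMap R01 R01'))
  (hn01 : IsNilpotent (RingHom.ker (algebraMap R01 R01')))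
  {M0' M1' M01' : Type u} [AddCommGroup M0'] [AddCommGroup M1'] [AddCommGroup M01']
  [Module R0' M0'] [Module R1' M1'] [Module R01' M01']
  [Module R0' M01'] [IsScalarTower R0' R01' M01'] [Module R1' M01'] [IsScalarTower R1' R01' M01']
  [Module.Invertible R0' M0'] [Module.Invertible R1' M1']
  {ρ0' : M0' →ₗ[R0'] M01'} {ρ1' : M1' →ₗ[R1'] M01'}
  (h0' : IsBaseChange R01' ρ0') (h1' : IsBaseChange R01' ρ1')

include hs0 hn0 hs1 hn1 hs01 hn01 h1' in
/-- **Lifting a two-chart diagram along a nilpotent thickening, gluing form.**  The lifted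
diagram is `M0 → R01 ⊗[R0] M0 ← M1`, the right map being `m ↦ φ (1 ⊗ m)`; its reduction is
identified with the given diagram through `e0`, `e1` and `sideEquiv e0 h0'`. -/
theorem exists_gluing_lift :
    ∃ (M0 : Type u) (_ : AddCommGroup M0) (_ : Module R0 M0)
      (M1 : Type u) (_ : AddCommGroup M1) (_ : Module R1 M1),
      Module.Invertible R0 M0 ∧ Module.Invertible R1 M1 ∧
      ∃ (e0 : R0' ⊗[R0] M0 ≃ₗ[R0'] M0') (e1 : R1' ⊗[R1] M1 ≃ₗ[R1'] M1')
        (φ : R01 ⊗[R1] M1 ≃ₗ[R01] R01 ⊗[R0] M0),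
        ∀ m : M1, sideEquiv e0 h0' ((1 : R01') ⊗ₜ[R01] φ ((1 : R01) ⊗ₜ[R1] m)) =
          ρ1' (e1 ((1 : R1') ⊗ₜ[R1] m)) := by
  obtain ⟨M0, _, _, hM0, ⟨e0⟩⟩ := exists_invertible_lift hs0 hn0 M0'
  obtain ⟨M1, _, _, hM1, ⟨e1⟩⟩ := exists_invertible_lift hs1 hn1 M1'
  refine ⟨M0, inferInstance, inferInstance, M1, inferInstance, inferInstance, hM0, hM1, e0, e1, ?_⟩
  let g : R01' ⊗[R01] (R01 ⊗[R1] M1) ≃ₗ[R01'] R01' ⊗[R01] (R01 ⊗[R0] M0) :=
    sideEquiv e1 h1' ≪≫ₗ (sideEquiv e0 h0').symm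
  obtain ⟨φ, hφ⟩ := exists_linearEquiv_lift hs01 hn01 g
  refine ⟨φ, fun m => ?_⟩
  have h1 : (1 : R01') ⊗ₜ[R01] φ ((1 : R01) ⊗ₜ[R1] m) =
      g ((1 : R01') ⊗ₜ[R01] ((1 : R01) ⊗ₜ[R1] m)) := by
    have := congrArg (fun ψ => ψ ((1 : R01') ⊗ₜ[R01] ((1 : R01) ⊗ₜ[R1] m))) hφ
    simpa using this
  rw [h1]
  change sideEquiv e0 h0' ((sideEquiv e0 h0').symm (sideEquiv e1 h1' _)) = _
  rw [LinearEquiv.apply_symm_apply, sideEquiv_tmul]

end Gluing

section Diagram

universe u

variable {R0 R1 R01 R0' R1' R01' : Type u}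
  [CommRing R0] [CommRing R1] [CommRing R01] [CommRing R0'] [CommRing R1'] [CommRing R01']
  [Algebra R0 R01] [Algebra R1 R01] [Algebra R0' R01'] [Algebra R1' R01']
  [Algebra R0 R0'] [Algebra R1 R1'] [Algebra R01 R01']
  {M0' M1' M01' : Type u} [AddCommGroup M0'] [AddCommGroup M1'] [AddCommGroup M01']
  [Module R0' M0'] [Module R1' M1'] [Module R01' M01']
  [Module R0' M01'] [Module R1' M01']

/-- A lift of the diagram `M0' -ρ0'→ M01' ←ρ1'- M1'` (over `R0' → R01' ← R1'`) to a diagram of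
invertible modules over `R0 → R01 ← R1`, in the conventions of the JAC plan. -/
structure DiagramLift (t : R0) (s : R1) (ρ0' : M0' →ₗ[R0'] M01') (ρ1' : M1' →ₗ[R1'] M01') :
    Type (u + 1) where
  /-- the module on the first chart -/
  M0 : Type u
  /-- the module on the second chart -/
  M1 : Type u
  /-- the module on the overlap -/
  M01 : Type u
  [acg0 : AddCommGroup M0]
  [acg1 : AddCommGroup M1]
  [acg01 : AddCommGroup M01]
  [mod0 : Module R0 M0]
  [mod1 : Module R1 M1]
  [mod01 : Module R01 M01]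
  [mod0' : Module R0 M01]
  [mod1' : Module R1 M01]
  [tower0 : IsScalarTower R0 R01 M01]
  [tower1 : IsScalarTower R1 R01 M01]
  [inv0 : Module.Invertible R0 M0]
  [inv1 : Module.Invertible R1 M1]
  /-- restriction from the first chart to the overlap -/
  ρ0 : M0 →ₗ[R0] M01
  /-- restriction from the second chart to the overlap -/
  ρ1 : M1 →ₗ[R1] M01
  [loc0 : IsLocalizedModule (Submonoid.powers t) ρ0]
  [loc1 : IsLocalizedModule (Submonoid.powers s) ρ1]
  /-- identification of the reduction on the first chart -/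
  e0 : R0' ⊗[R0] M0 ≃ₗ[R0'] M0'
  /-- identification of the reduction on the second chart -/
  e1 : R1' ⊗[R1] M1 ≃ₗ[R1'] M1'
  /-- identification of the reduction on the overlap -/
  e01 : R01' ⊗[R01] M01 ≃ₗ[R01'] M01'
  comm0 : ∀ m : M0, e01 ((1 : R01') ⊗ₜ[R01] ρ0 m) = ρ0' (e0 ((1 : R0') ⊗ₜ[R0] m))
  comm1 : ∀ m : M1, e01 ((1 : R01') ⊗ₜ[R01] ρ1 m) = ρ1' (e1 ((1 : R1') ⊗ₜ[R1] m))

variable [Algebra R0 R01'] [IsScalarTower R0 R01 R01'] [IsScalarTower R0 R0' R01']
  [Algebra R1 R01'] [IsScalarTower R1 R01 R01'] [IsScalarTower R1 R1' R01']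
  [IsScalarTower R0' R01' M01'] [IsScalarTower R1' R01' M01']
  [Module.Invertible R0' M0'] [Module.Invertible R1' M1']
  (hs0 : Function.Surjective (algebraMap R0 R0'))
  (hn0 : IsNilpotent (RingHom.ker (algebraMap R0 R0')))
  (hs1 : Function.Surjective (algebraMap R1 R1'))
  (hn1 : IsNilpotent (RingHom.ker (algebraMap R1 R1')))
  (hs01 : Function.Surjective (algebraMap R01 R01'))
  (hn01 : IsNilpotent (RingHom.ker (algebraMap R01 R01')))
  (t : R0) (s : R1) [IsLocalization.Away t R01] [IsLocalization.Away s R01]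
  (ρ0' : M0' →ₗ[R0'] M01') (ρ1' : M1' →ₗ[R1'] M01')

include hs0 hn0 hs1 hn1 hs01 hn01 in
/-- **Lifting a two-chart diagram along a nilpotent thickening, diagram form**, with the
localisation hypotheses on the given diagram expressed as base change properties. -/
theorem nonempty_diagramLift_of_isBaseChange
    (h0' : IsBaseChange R01' ρ0') (h1' : IsBaseChange R01' ρ1') :
    Nonempty (DiagramLift (R0 := R0) (R1 := R1) (R01 := R01) (R01' := R01') t s ρ0' ρ1') := by
  obtain ⟨M0, _, _, M1, _, _, hM0, hM1, e0, e1, φ, hφ⟩ :=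
    exists_gluing_lift hs0 hn0 hs1 hn1 hs01 hn01 h0' h1'
  -- `R1` acts on `R01 ⊗[R0] M0` through the left factor (Mathlib's default instance)
  have hsmul : ∀ (r : R1) (x : R01 ⊗[R0] M0), r • x = algebraMap R1 R01 r • x :=
    fun r x => (algebraMap_smul R01 r x).symm
  let ρ1 : M1 →ₗ[R1] R01 ⊗[R0] M0 :=
    { toFun := fun m => φ ((1 : R01) ⊗ₜ[R1] m)
      map_add' := fun a b => by rw [TensorProduct.tmul_add, map_add]
      map_smul' := fun r m => by
        have h : ((1 : R01) ⊗ₜ[R1] (r • m) : R01 ⊗[R1] M1) =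
            algebraMap R1 R01 r • ((1 : R01) ⊗ₜ[R1] m) := by
          rw [TensorProduct.tmul_smul, TensorProduct.smul_tmul', TensorProduct.smul_tmul',
            Algebra.smul_def, smul_eq_mul]
        rw [h, map_smul, RingHom.id_apply, hsmul] }
  have hloc0 : IsLocalizedModule (Submonoid.powers t) (TensorProduct.mk R0 R01 M0 1) :=
    (isLocalizedModule_iff_isBaseChange (Submonoid.powers t) R01 _).mpr
      (TensorProduct.isBaseChange R0 M0 R01)
  have hloc1 : IsLocalizedModule (Submonoid.powers s) ρ1 :=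
    (isLocalizedModule_iff_isBaseChange (Submonoid.powers s) R01 ρ1).mpr
      (IsBaseChange.of_equiv φ fun _ => rfl)
  exact ⟨{
    M0 := M0, M1 := M1, M01 := R01 ⊗[R0] M0
    ρ0 := TensorProduct.mk R0 R01 M0 1
    ρ1 := ρ1
    e0 := e0, e1 := e1
    e01 := sideEquiv e0 h0'
    comm0 := fun m => sideEquiv_tmul e0 h0' m
    comm1 := hφ }⟩

include hs0 hn0 hs1 hn1 hs01 hn01 in
/-- **Lifting a two-chart diagram along a nilpotent thickening, diagram form.** -/
theorem nonempty_diagramLift (t' : R0') (s' : R1')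
    [IsLocalization.Away t' R01'] [IsLocalization.Away s' R01']
    [IsLocalizedModule (Submonoid.powers t') ρ0'] [IsLocalizedModule (Submonoid.powers s') ρ1'] :
    Nonempty (DiagramLift (R0 := R0) (R1 := R1) (R01 := R01) (R01' := R01') t s ρ0' ρ1') :=
  nonempty_diagramLift_of_isBaseChange hs0 hn0 hs1 hn1 hs01 hn01 t s ρ0' ρ1'
    ((isLocalizedModule_iff_isBaseChange (Submonoid.powers t') R01' ρ0').mp inferInstance)
    ((isLocalizedModule_iff_isBaseChange (Submonoid.powers s') R01' ρ1').mp inferInstance)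

end Diagram

end Fermat.Agent.JAC.Lift.DiagLift70
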