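import Mathlib
import Fermat.Agent.JAC.Core.Defs36
import Fermat.Agent.JAC.Lift.DiagLift70

/-!
# JAC / Lift / LineDiagLift70 : formal smoothness input (FS) for `Core.Defs36.LineDiag`

Adapter of `DiagLift70` to the bundled `LineDiag` of `Core/Defs36`:

* `Reduces N N'` : comparison data identifying the reduction of the line diagram `N` (over the
  family `R0 → R01 ← R1`) with the line diagram `N'` (over `R0' → R01' ← R1'`).
* `exists_lineDiag_lift` : every line diagram over the primed family is the reduction of a line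
  diagram over the unprimed family, when `R_i → R_i'` are surjective with nilpotent kernels.
* `exists_trivialization_lift` : trivialisations of projective modules lift along nilpotent
  thickenings, compatibly.
* `isRigid_of_reduces` : if `N` reduces to `N'` and `N'` is rigid along `R01' → B'`, then `N` is
  rigid along `R01 → B` (`B → B'` surjective with nilpotent kernel).
-/

set_option autoImplicit false

open TensorProduct

namespace Fermat.Agent.JAC.Lift.LineDiagLift70

open Fermat.Agent.JAC.Core.Defs36 Fermat.Agent.JAC.Lift.DiagLift70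
  Fermat.Agent.JAC.Lift.ProjLift70

universe u

variable {R0 R1 R01 R0' R1' R01' : Type u}
  [CommRing R0] [CommRing R1] [CommRing R01] [CommRing R0'] [CommRing R1'] [CommRing R01']
  [Algebra R0 R01] [Algebra R1 R01] [Algebra R0' R01'] [Algebra R1' R01']
  [Algebra R0 R0'] [Algebra R1 R1'] [Algebra R01 R01']
  {t : R0} {s : R1} {t' : R0'} {s' : R1'}

/-- Comparison data identifying the reduction of `N` with `N'`. -/
structure Reduces (N : LineDiag t s R01) (N' : LineDiag t' s' R01') where
  /-- comparison on the first chart -/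
  e0 : R0' ⊗[R0] N.M0 ≃ₗ[R0'] N'.M0
  /-- comparison on the second chart -/
  e1 : R1' ⊗[R1] N.M1 ≃ₗ[R1'] N'.M1
  /-- comparison on the overlap -/
  e01 : R01' ⊗[R01] N.M01 ≃ₗ[R01'] N'.M01
  comm0 : ∀ m : N.M0, e01 ((1 : R01') ⊗ₜ[R01] N.rho0 m) = N'.rho0 (e0 ((1 : R0') ⊗ₜ[R0] m))
  comm1 : ∀ m : N.M1, e01 ((1 : R01') ⊗ₜ[R01] N.rho1 m) = N'.rho1 (e1 ((1 : R1') ⊗ₜ[R1] m))

/-- The line diagram underlying a `DiagramLift`. -/
def lineDiagOfDiagramLift {M0' M1' M01' : Type u}
    [AddCommGroup M0'] [AddCommGroup M1'] [AddCommGroup M01']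
    [Module R0' M0'] [Module R1' M1'] [Module R01' M01'] [Module R0' M01'] [Module R1' M01']
    {ρ0' : M0' →ₗ[R0'] M01'} {ρ1' : M1' →ₗ[R1'] M01'}
    (D : DiagramLift (R0 := R0) (R1 := R1) (R01 := R01) (R01' := R01') t s ρ0' ρ1') :
    LineDiag t s R01 :=
  { M0 := D.M0
    M1 := D.M1
    M01 := D.M01
    addCommGroup0 := D.acg0
    addCommGroup1 := D.acg1
    addCommGroup01 := D.acg01
    module0 := D.mod0
    module1 := D.mod1
    module01 := D.mod01
    module0' := D.mod0'
    module1' := D.mod1'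
    isScalarTower0 := D.tower0
    isScalarTower1 := D.tower1
    rho0 := D.ρ0
    rho1 := D.ρ1
    isLocalizedModule0 := D.loc0
    isLocalizedModule1 := D.loc1
    invertible0 := D.inv0
    invertible1 := D.inv1 }

section Rigid

variable {B B' : Type u} [CommRing B] [CommRing B'] [Algebra B B']
  (hsB : Function.Surjective (algebraMap B B'))
  (hnB : IsNilpotent (RingHom.ker (algebraMap B B')))

include hsB hnB in
/-- Trivialisations of a projective module lift along a nilpotent thickening, compatibly with a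
given base change map `q`. -/
theorem exists_trivialization_lift {L L' : Type*} [AddCommGroup L] [Module B L]
    [Module.Projective B L] [AddCommGroup L'] [Module B' L'] [Module B L'] [IsScalarTower B B' L']
    {q : L →ₗ[B] L'} (hq : IsBaseChange B' q) (τ' : L' ≃ₗ[B'] B') :
    ∃ τ : L ≃ₗ[B] B, ∀ x, algebraMap B B' (τ x) = τ' (q x) := by
  let g : B' ⊗[B] L ≃ₗ[B'] B' ⊗[B] B :=
    hq.equiv ≪≫ₗ τ' ≪≫ₗ (TensorProduct.AlgebraTensorModule.rid B B' B').symm
  obtain ⟨τ, hτ⟩ := exists_linearEquiv_lift hsB hnB g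
  refine ⟨τ, fun x => ?_⟩
  have h1 : (1 : B') ⊗ₜ[B] τ x = g ((1 : B') ⊗ₜ[B] x) := by
    have := congrArg (fun ψ => ψ ((1 : B') ⊗ₜ[B] x)) hτ
    simpa using this
  have h2 : TensorProduct.AlgebraTensorModule.rid B B' B' ((1 : B') ⊗ₜ[B] τ x) = τ' (q x) := by
    rw [h1]
    change TensorProduct.AlgebraTensorModule.rid B B' B'
      ((TensorProduct.AlgebraTensorModule.rid B B' B').symm (τ' (hq.equiv ((1 : B') ⊗ₜ[B] x)))) = _
    rw [LinearEquiv.apply_symm_apply, IsBaseChange.equiv_tmul, one_smul]
  rw [← h2, TensorProduct.AlgebraTensorModule.rid_tmul, Algebra.smul_def, mul_one]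

variable [Algebra R01 B] [Algebra R01' B'] [Algebra R01 B'] [IsScalarTower R01 R01' B']
  [IsScalarTower R01 B B'] [IsLocalization.Away t R01]

include hsB hnB in
/-- **(FS), rigidification part.**  If `N` reduces to `N'` and `N'` is rigid along `R01' → B'`,
then `N` is rigid along `R01 → B`. -/
theorem isRigid_of_reduces {N : LineDiag t s R01} {N' : LineDiag t' s' R01'}
    (r : Reduces N N') (h : LineDiag.IsRigid (B := B') N') : LineDiag.IsRigid (B := B) N := by
  obtain ⟨τ'⟩ := h
  have : Module.Invertible R01 N.M01 :=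
    Module.Invertible.of_isLocalization (Submonoid.powers t) N.rho0
  let c : B' ⊗[B] (B ⊗[R01] N.M01) ≃ₗ[B'] B' ⊗[R01'] N'.M01 :=
    sideEquiv r.e01 (TensorProduct.isBaseChange R01' N'.M01 B')
  let q : B ⊗[R01] N.M01 →ₗ[B] B' ⊗[R01'] N'.M01 :=
    (c.toLinearMap.restrictScalars B) ∘ₗ (TensorProduct.mk B B' (B ⊗[R01] N.M01) 1)
  have hq : IsBaseChange B' q := IsBaseChange.of_equiv c fun _ => rfl
  obtain ⟨τ, -⟩ := exists_trivialization_lift hsB hnB hq τ'
  exact ⟨τ⟩

end Rigid

variable [Algebra R0 R01'] [IsScalarTower R0 R01 R01'] [IsScalarTower R0 R0' R01']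
  [Algebra R1 R01'] [IsScalarTower R1 R01 R01'] [IsScalarTower R1 R1' R01']
  (hs0 : Function.Surjective (algebraMap R0 R0'))
  (hn0 : IsNilpotent (RingHom.ker (algebraMap R0 R0')))
  (hs1 : Function.Surjective (algebraMap R1 R1'))
  (hn1 : IsNilpotent (RingHom.ker (algebraMap R1 R1')))
  (hs01 : Function.Surjective (algebraMap R01 R01'))
  (hn01 : IsNilpotent (RingHom.ker (algebraMap R01 R01')))
  [IsLocalization.Away t R01] [IsLocalization.Away s R01]
  [IsLocalization.Away t' R01'] [IsLocalization.Away s' R01']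

include hs0 hn0 hs1 hn1 hs01 hn01 in
/-- **(FS), module part.**  Every line diagram over the primed family is the reduction of a line
diagram over the unprimed family. -/
theorem exists_lineDiag_lift (N' : LineDiag t' s' R01') :
    ∃ N : LineDiag t s R01, Nonempty (Reduces N N') := by
  obtain ⟨D⟩ := nonempty_diagramLift (R0 := R0) (R1 := R1) (R01 := R01) (R01' := R01')
    hs0 hn0 hs1 hn1 hs01 hn01 t s N'.rho0 N'.rho1 t' s'
  exact ⟨lineDiagOfDiagramLift D, ⟨⟨D.e0, D.e1, D.e01, D.comm0, D.comm1⟩⟩⟩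



end Fermat.Agent.JAC.Lift.LineDiagLift70
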