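import Mathlib
import Fermat.Agent.JAC.Core.Cart36
import Fermat.Agent.JAC.Lift.LineDiagLift70

/-!
# JAC / Lift / CartLift70 : (FS) in the `CartHom` interface of `Core/Cart36`

* `isBaseChangeHom_of_equiv` : a tensor-product description `e : R' ⊗[R] P ≃ P'` of a base change
  gives the semilinear universal property `Core.Cart36.IsBaseChangeHom`.
* `cartHomOfReduces` : `LineDiagLift70.Reduces N N'` gives a cartesian morphism `N ⟶ N'`.
* `exists_cartHom_lift` : **(FS), module part**: if the three components of a morphism of two-chart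
  families `ψ` are surjective with nilpotent kernels, every line diagram over the target family is
  the base change (`LineDiag.CartHom ψ`) of a line diagram over the source family.
* `isRigid_of_cartHom` : **(FS), rigidification part**.
-/

set_option autoImplicit false

open TensorProduct

namespace Fermat.Agent.JAC.Lift.CartLift70

open Fermat.Agent.JAC.Core.Defs36 Fermat.Agent.JAC.Core.Cart36
  Fermat.Agent.JAC.Lift.LineDiagLift70

universe u

section General

variable {R R' : Type u} [CommRing R] [CommRing R'] [Algebra R R']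
  {P P' : Type u} [AddCommGroup P] [Module R P] [AddCommGroup P'] [Module R' P']

/-- A tensor-product description of a base change gives the semilinear universal property. -/
theorem isBaseChangeHom_of_equiv (e : R' ⊗[R] P ≃ₗ[R'] P') (θ : P →ₛₗ[algebraMap R R'] P')
    (hθ : ∀ x, θ x = e ((1 : R') ⊗ₜ[R] x)) : IsBaseChangeHom θ := by
  intro Q _ _ g
  let _ : Module R Q := Module.compHom Q (algebraMap R R')
  have : IsScalarTower R R' Q := IsScalarTower.of_algebraMap_smul fun _ _ => rfl
  let g₀ : P →ₗ[R] Q :=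
    { toFun := g
      map_add' := map_add g
      map_smul' := fun r x => by
        rw [LinearMap.map_smulₛₗ]
        rfl }
  have hbc := TensorProduct.isBaseChange R P R'
  refine ⟨(hbc.lift g₀) ∘ₗ e.symm.toLinearMap, fun x => ?_, fun g'' hg'' => ?_⟩
  · rw [hθ, LinearMap.comp_apply, LinearEquiv.coe_coe, LinearEquiv.symm_apply_apply]
    exact hbc.lift_eq g₀ x
  · have h1 : g'' ∘ₗ e.toLinearMap = hbc.lift g₀ := by
      apply hbc.algHom_ext
      intro x
      rw [hbc.lift_eq]
      change g'' (e ((1 : R') ⊗ₜ[R] x)) = g x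
      rw [← hθ, hg'']
    rw [← h1]
    ext y
    simp

end General

section Family

variable {R0 R1 R01 R0' R1' R01' : Type u}
  [CommRing R0] [CommRing R1] [CommRing R01] [CommRing R0'] [CommRing R1'] [CommRing R01']
  [Algebra R0 R01] [Algebra R1 R01] [Algebra R0' R01'] [Algebra R1' R01']
  {t : R0} {s : R1} {t' : R0'} {s' : R1'}

/-- **(FS), module part, `CartHom` form.**  If the three components of a morphism of two-chart
families are surjective with nilpotent kernels, every line diagram over the target family is the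
base change of a line diagram over the source family. -/
theorem exists_cartHom_lift (ψ : FamilyHom t s t' s' R01 R01')
    [IsLocalization.Away t R01] [IsLocalization.Away s R01]
    [IsLocalization.Away t' R01'] [IsLocalization.Away s' R01']
    (hs0 : Function.Surjective ψ.ψ0) (hn0 : IsNilpotent (RingHom.ker ψ.ψ0))
    (hs1 : Function.Surjective ψ.ψ1) (hn1 : IsNilpotent (RingHom.ker ψ.ψ1))
    (hs01 : Function.Surjective ψ.ψ01) (hn01 : IsNilpotent (RingHom.ker ψ.ψ01))
    (N' : LineDiag t' s' R01') :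
    ∃ N : LineDiag t s R01, Nonempty (LineDiag.CartHom ψ N N') := by
  let _ : Algebra R0 R0' := ψ.ψ0.toAlgebra
  let _ : Algebra R1 R1' := ψ.ψ1.toAlgebra
  let _ : Algebra R01 R01' := ψ.ψ01.toAlgebra
  let _ : Algebra R0 R01' := ((algebraMap R0' R01').comp ψ.ψ0).toAlgebra
  let _ : Algebra R1 R01' := ((algebraMap R1' R01').comp ψ.ψ1).toAlgebra
  have : IsScalarTower R0 R0' R01' := IsScalarTower.of_algebraMap_eq fun _ => rfl
  have : IsScalarTower R1 R1' R01' := IsScalarTower.of_algebraMap_eq fun _ => rfl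
  have : IsScalarTower R0 R01 R01' := IsScalarTower.of_algebraMap_eq fun x => (ψ.comm0 x).symm
  have : IsScalarTower R1 R01 R01' := IsScalarTower.of_algebraMap_eq fun x => (ψ.comm1 x).symm
  obtain ⟨N, ⟨r⟩⟩ := exists_lineDiag_lift (t := t) (s := s) (R01 := R01)
    (hs0 : Function.Surjective (algebraMap R0 R0')) hn0
    (hs1 : Function.Surjective (algebraMap R1 R1')) hn1
    (hs01 : Function.Surjective (algebraMap R01 R01')) hn01 N'
  refine ⟨N, ⟨?_⟩⟩
  -- the three semilinear comparison maps
  let f0 : N.M0 →ₛₗ[ψ.ψ0] N'.M0 :=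
    { toFun := fun m => r.e0 ((1 : R0') ⊗ₜ[R0] m)
      map_add' := fun a b => by rw [TensorProduct.tmul_add, map_add]
      map_smul' := fun a m => by
        have h : ((1 : R0') ⊗ₜ[R0] (a • m) : R0' ⊗[R0] N.M0) =
            ψ.ψ0 a • ((1 : R0') ⊗ₜ[R0] m) := by
          rw [TensorProduct.tmul_smul, ← algebraMap_smul R0' a ((1 : R0') ⊗ₜ[R0] m)]
          rfl
        rw [h, map_smul] }
  let f1 : N.M1 →ₛₗ[ψ.ψ1] N'.M1 :=
    { toFun := fun m => r.e1 ((1 : R1') ⊗ₜ[R1] m)
      map_add' := fun a b => by rw [TensorProduct.tmul_add, map_add]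
      map_smul' := fun a m => by
        have h : ((1 : R1') ⊗ₜ[R1] (a • m) : R1' ⊗[R1] N.M1) =
            ψ.ψ1 a • ((1 : R1') ⊗ₜ[R1] m) := by
          rw [TensorProduct.tmul_smul, ← algebraMap_smul R1' a ((1 : R1') ⊗ₜ[R1] m)]
          rfl
        rw [h, map_smul] }
  let f01 : N.M01 →ₛₗ[ψ.ψ01] N'.M01 :=
    { toFun := fun m => r.e01 ((1 : R01') ⊗ₜ[R01] m)
      map_add' := fun a b => by rw [TensorProduct.tmul_add, map_add]
      map_smul' := fun a m => by
        have h : ((1 : R01') ⊗ₜ[R01] (a • m) : R01' ⊗[R01] N.M01) =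
            ψ.ψ01 a • ((1 : R01') ⊗ₜ[R01] m) := by
          rw [TensorProduct.tmul_smul, ← algebraMap_smul R01' a ((1 : R01') ⊗ₜ[R01] m)]
          rfl
        rw [h, map_smul] }
  exact
    { f0 := f0
      f1 := f1
      f01 := f01
      comm0 := fun x => r.comm0 x
      comm1 := fun y => r.comm1 y
      cart0 := isBaseChangeHom_of_equiv r.e0 f0 fun _ => rfl
      cart1 := isBaseChangeHom_of_equiv r.e1 f1 fun _ => rfl
      cart01 := isBaseChangeHom_of_equiv r.e01 f01 fun _ => rfl }

/-- The tensor-product comparison isomorphism on the overlap extracted from a cartesian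
morphism. -/
theorem exists_equiv01_of_cartHom (ψ : FamilyHom t s t' s' R01 R01')
    {N : LineDiag t s R01} {N' : LineDiag t' s' R01'} (c : LineDiag.CartHom ψ N N') :
    letI : Algebra R01 R01' := ψ.ψ01.toAlgebra
    ∃ e : R01' ⊗[R01] N.M01 ≃ₗ[R01'] N'.M01, ∀ m, e ((1 : R01') ⊗ₜ[R01] m) = c.f01 m := by
  let _ : Algebra R01 R01' := ψ.ψ01.toAlgebra
  let θ : N.M01 →ₛₗ[ψ.ψ01] R01' ⊗[R01] N.M01 :=
    { toFun := fun m => (1 : R01') ⊗ₜ[R01] m
      map_add' := fun a b => TensorProduct.tmul_add _ a b
      map_smul' := fun a m => by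
        rw [TensorProduct.tmul_smul, ← algebraMap_smul R01' a ((1 : R01') ⊗ₜ[R01] m)]
        rfl }
  have hθ : IsBaseChangeHom θ :=
    isBaseChangeHom_of_equiv (LinearEquiv.refl R01' (R01' ⊗[R01] N.M01)) θ fun _ => rfl
  obtain ⟨e, he⟩ := IsBaseChangeHom.exists_linearEquiv hθ c.cart01
  exact ⟨e, he⟩

end Family

section Rigid

variable {R0 R1 R01 R0' R1' R01' : Type u}
  [CommRing R0] [CommRing R1] [CommRing R01] [CommRing R0'] [CommRing R1'] [CommRing R01']
  [Algebra R0 R01] [Algebra R1 R01] [Algebra R0' R01'] [Algebra R1' R01']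
  {t : R0} {s : R1} {t' : R0'} {s' : R1'}
  {B B' : Type u} [CommRing B] [CommRing B'] [Algebra R01 B] [Algebra R01' B']

open Fermat.Agent.JAC.Lift.DiagLift70 in
/-- **(FS), rigidification part, `CartHom` form.**  `π : B →+* B'` surjective with nilpotent
kernel, compatible with `ψ.ψ01` and the rigidifying maps `R01 → B`, `R01' → B'`. -/
theorem isRigid_of_cartHom (ψ : FamilyHom t s t' s' R01 R01') [IsLocalization.Away t R01]
    (π : B →+* B') (hπs : Function.Surjective π) (hπn : IsNilpotent (RingHom.ker π))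
    (hcomm : ∀ r : R01, π (algebraMap R01 B r) = algebraMap R01' B' (ψ.ψ01 r))
    {N : LineDiag t s R01} {N' : LineDiag t' s' R01'} (c : LineDiag.CartHom ψ N N')
    (h : LineDiag.IsRigid (B := B') N') : LineDiag.IsRigid (B := B) N := by
  let _ : Algebra R01 R01' := ψ.ψ01.toAlgebra
  let _ : Algebra B B' := π.toAlgebra
  let _ : Algebra R01 B' := ((algebraMap R01' B').comp ψ.ψ01).toAlgebra
  have : IsScalarTower R01 R01' B' := IsScalarTower.of_algebraMap_eq fun _ => rfl
  have : IsScalarTower R01 B B' := IsScalarTower.of_algebraMap_eq fun x => (hcomm x).symm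
  obtain ⟨e01, -⟩ := exists_equiv01_of_cartHom ψ c
  obtain ⟨τ'⟩ := h
  have : Module.Invertible R01 N.M01 :=
    Module.Invertible.of_isLocalization (Submonoid.powers t) N.rho0
  let cmp : B' ⊗[B] (B ⊗[R01] N.M01) ≃ₗ[B'] B' ⊗[R01'] N'.M01 :=
    sideEquiv e01 (TensorProduct.isBaseChange R01' N'.M01 B')
  let q : B ⊗[R01] N.M01 →ₗ[B] B' ⊗[R01'] N'.M01 :=
    (cmp.toLinearMap.restrictScalars B) ∘ₗ (TensorProduct.mk B B' (B ⊗[R01] N.M01) 1)
  have hq : IsBaseChange B' q := IsBaseChange.of_equiv cmp fun _ => rfl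
  obtain ⟨τ, -⟩ := exists_trivialization_lift (hπs : Function.Surjective (algebraMap B B')) hπn
    hq τ'
  exact ⟨τ⟩

end Rigid

end Fermat.Agent.JAC.Lift.CartLift70
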