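/-
Programme JAC, work package A6 (pure algebra half): Nakayama-type lemmas for a NILPOTENT ideal
(no finiteness hypothesis on the modules), and detection of surjectivity / bijectivity of linear
maps after base change along a surjection `R → S` with nilpotent kernel.
-/
import Mathlib

set_option autoImplicit false

open TensorProduct

namespace Fermat.Agent.JAC.Lift.NilNakayama87

universe u v w

section Ideal

variable {R : Type u} [CommRing R] {N : Type v} [AddCommGroup N] [Module R N]

/-- If `I • ⊤ = ⊤` then `I ^ k • ⊤ = ⊤` for all `k`. -/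
theorem pow_smul_top_eq_top {I : Ideal R} (h : I • (⊤ : Submodule R N) = ⊤) (k : ℕ) :
    (I ^ k) • (⊤ : Submodule R N) = ⊤ := by
  induction k with
  | zero => simp
  | succ k ih => rw [pow_succ, Submodule.mul_smul, h, ih]

/-- Nakayama for a nilpotent ideal, no finiteness: `N = I N` forces `N = 0`. -/
theorem subsingleton_of_smul_top_eq_top {I : Ideal R} (hI : IsNilpotent I)
    (h : I • (⊤ : Submodule R N) = ⊤) : Subsingleton N := by
  obtain ⟨k, hk⟩ := hI
  have h1 := pow_smul_top_eq_top (N := N) h k
  rw [hk] at h1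
  have h2 : (⊤ : Submodule R N) = ⊥ := by
    rw [← h1]
    exact Submodule.bot_smul _
  exact (Submodule.subsingleton_iff R).mp (subsingleton_of_bot_eq_top h2.symm)

/-- Nakayama for a nilpotent ideal, submodule form: `N' + I N = N` forces `N' = N`. -/
theorem eq_top_of_sup_smul_top_eq_top {I : Ideal R} (hI : IsNilpotent I) (N' : Submodule R N)
    (h : N' ⊔ I • (⊤ : Submodule R N) = ⊤) : N' = ⊤ := by
  have hq : I • (⊤ : Submodule R (N ⧸ N')) = ⊤ := by
    rw [eq_top_iff]
    rintro x -
    obtain ⟨y, rfl⟩ := N'.mkQ_surjective x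
    have hy : y ∈ N' ⊔ I • (⊤ : Submodule R N) := by rw [h]; exact Submodule.mem_top
    obtain ⟨a, ha, b, hb, rfl⟩ := Submodule.mem_sup.mp hy
    have : N'.mkQ (a + b) = N'.mkQ b := by
      rw [map_add, Submodule.mkQ_apply, Submodule.mkQ_apply,
        (Submodule.Quotient.mk_eq_zero N').mpr ha, zero_add]
    rw [this]
    have hmap : Submodule.map N'.mkQ (I • (⊤ : Submodule R N)) ≤ I • ⊤ := by
      rw [Submodule.map_smul'']
      exact Submodule.smul_mono le_rfl le_top
    exact hmap (Submodule.mem_map_of_mem hb)
  have := subsingleton_of_smul_top_eq_top hI hq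
  exact Submodule.Quotient.subsingleton_iff.mp this

end Ideal

section BaseChange

variable {R : Type u} [CommRing R] (S : Type w) [CommRing S] [Algebra R S]
  {N : Type v} [AddCommGroup N] [Module R N]

/-- For `R → S` surjective, `N → S ⊗[R] N` is surjective. -/
theorem mk_one_surjective (hs : Function.Surjective (algebraMap R S)) :
    Function.Surjective (TensorProduct.mk R S N 1) := by
  intro x
  induction x using TensorProduct.induction_on with
  | zero => exact ⟨0, map_zero _⟩
  | tmul s n =>
    obtain ⟨r, rfl⟩ := hs s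
    refine ⟨r • n, ?_⟩
    simp only [TensorProduct.mk_apply]
    rw [TensorProduct.tmul_smul, TensorProduct.smul_tmul', Algebra.smul_def, mul_one]
  | add x y hx hy =>
    obtain ⟨a, rfl⟩ := hx
    obtain ⟨b, rfl⟩ := hy
    exact ⟨a + b, map_add _ _ _⟩

/-- For `R → S` surjective with kernel `I`, the kernel of `N → S ⊗[R] N` is `I N`. -/
theorem mem_smul_top_of_one_tmul_eq_zero (hs : Function.Surjective (algebraMap R S)) {n : N}
    (h : (1 : S) ⊗ₜ[R] n = 0) :
    n ∈ (RingHom.ker (algebraMap R S)) • (⊤ : Submodule R N) := by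
  set I := RingHom.ker (algebraMap R S) with hI
  let φ : (R ⧸ RingHom.ker (Algebra.ofId R S)) ≃ₐ[R] S :=
    Ideal.quotientKerAlgEquivOfSurjective (f := Algebra.ofId R S) hs
  have hker : RingHom.ker (Algebra.ofId R S) = I := rfl
  let e : S ⊗[R] N ≃ₗ[R] (R ⧸ RingHom.ker (Algebra.ofId R S)) ⊗[R] N :=
    TensorProduct.congr φ.symm.toLinearEquiv (LinearEquiv.refl R N)
  have h1 : e ((1 : S) ⊗ₜ[R] n) = (1 : R ⧸ RingHom.ker (Algebra.ofId R S)) ⊗ₜ[R] n := by
    simp only [e, TensorProduct.congr_tmul, LinearEquiv.refl_apply, AlgEquiv.toLinearEquiv_apply,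
      map_one]
  rw [h, map_zero] at h1
  have h2 := congrArg (TensorProduct.quotTensorEquivQuotSMul N (RingHom.ker (Algebra.ofId R S))) h1
  rw [map_zero, TensorProduct.quotTensorEquivQuotSMul_mk_one_tmul] at h2
  rw [← hker]
  exact (Submodule.Quotient.mk_eq_zero _).mp h2.symm

/-- If `R → S` is surjective with nilpotent kernel and `S ⊗[R] N = 0`, then `N = 0`
(no finiteness hypothesis). -/
theorem subsingleton_of_subsingleton_tensor (hs : Function.Surjective (algebraMap R S))
    (hn : IsNilpotent (RingHom.ker (algebraMap R S))) [Subsingleton (S ⊗[R] N)] :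
    Subsingleton N := by
  apply subsingleton_of_smul_top_eq_top hn
  rw [eq_top_iff]
  rintro n -
  exact mem_smul_top_of_one_tmul_eq_zero S hs (Subsingleton.elim _ _)

variable {M : Type*} [AddCommGroup M] [Module R M]

/-- A linear map which becomes surjective after base change along a surjection with
nilpotent kernel is surjective (no finiteness hypothesis). -/
theorem surjective_of_baseChange_surjective (hs : Function.Surjective (algebraMap R S))
    (hn : IsNilpotent (RingHom.ker (algebraMap R S))) (g : M →ₗ[R] N)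
    (hg : Function.Surjective (g.baseChange S)) : Function.Surjective g := by
  rw [← LinearMap.range_eq_top]
  apply eq_top_of_sup_smul_top_eq_top hn
  rw [eq_top_iff]
  rintro n -
  obtain ⟨x, hx⟩ := hg ((1 : S) ⊗ₜ[R] n)
  obtain ⟨m, rfl⟩ := mk_one_surjective (N := M) S hs x
  have h0 : (1 : S) ⊗ₜ[R] (n - g m) = 0 := by
    rw [TensorProduct.tmul_sub, ← hx]
    simp
  have h1 := mem_smul_top_of_one_tmul_eq_zero S hs h0
  have : n = g m + (n - g m) := by abel
  rw [this]
  exact Submodule.add_mem_sup (LinearMap.mem_range_self g m) h1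

end BaseChange

end Fermat.Agent.JAC.Lift.NilNakayama87
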