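/-
Programme JAC, work package A6 (pure algebra half): lifting of projective modules, linear maps
and isomorphisms along a surjection `R → S` with nilpotent kernel.
-/
import Mathlib
import Fermat.Agent.JAC.Lift.NilNakayama87

set_option autoImplicit false

open TensorProduct

namespace Fermat.Agent.JAC.Lift.LiftProj87

open Fermat.Agent.JAC.Lift.NilNakayama87

universe u v w

variable {R : Type u} [CommRing R] (S : Type w) [CommRing S] [Algebra R S]

section Bijective

variable {P : Type*} {Q : Type*} [AddCommGroup P] [Module R P] [AddCommGroup Q] [Module R Q]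

/-- (L3) A linear map into a projective module which becomes bijective after base change along a
surjection with nilpotent kernel is bijective. No finiteness hypothesis. -/
theorem bijective_of_baseChange_bijective (hs : Function.Surjective (algebraMap R S))
    (hn : IsNilpotent (RingHom.ker (algebraMap R S))) [Module.Projective R Q] (g : P →ₗ[R] Q)
    (hg : Function.Bijective (g.baseChange S)) : Function.Bijective g := by
  have hsurj := surjective_of_baseChange_surjective S hs hn g hg.2
  refine ⟨?_, hsurj⟩
  obtain ⟨s, hs'⟩ := Module.projective_lifting_property g LinearMap.id hsurj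
  have hgs : ∀ q, g (s q) = q := fun q => LinearMap.congr_fun hs' q
  let K := LinearMap.ker g
  let π : P →ₗ[R] K := (LinearMap.id - s ∘ₗ g).codRestrict K (by
    intro x
    show g (((LinearMap.id : P →ₗ[R] P) - s ∘ₗ g) x) = 0
    simp only [LinearMap.sub_apply, LinearMap.id_coe, id_eq,
      LinearMap.coe_comp, Function.comp_apply, map_sub, hgs, sub_self])
  have hπ : π ∘ₗ K.subtype = LinearMap.id := by
    ext ⟨x, hx⟩
    have hx' : g x = 0 := hx
    simp [π, hx']
  have hgK : g ∘ₗ K.subtype = 0 := by
    ext ⟨x, hx⟩
    exact hx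
  have key : ∀ z : S ⊗[R] K, z = 0 := by
    intro z
    have h1 : (g.baseChange S) ((K.subtype.baseChange S) z) = 0 := by
      rw [← LinearMap.comp_apply, ← LinearMap.baseChange_comp, hgK, LinearMap.baseChange_zero]
      rfl
    have h2 : (K.subtype.baseChange S) z = 0 := hg.1 (by rw [h1, map_zero])
    have h3 : (π.baseChange S) ((K.subtype.baseChange S) z) = z := by
      rw [← LinearMap.comp_apply, ← LinearMap.baseChange_comp, hπ, LinearMap.baseChange_id]
      rfl
    rw [← h3, h2, map_zero]
  have : Subsingleton (S ⊗[R] K) := ⟨fun x y => by rw [key x, key y]⟩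
  have hK : Subsingleton K := subsingleton_of_subsingleton_tensor S hs hn
  rw [← LinearMap.ker_eq_bot]
  exact Submodule.eq_bot_of_subsingleton

end Bijective

section LiftHom

variable {P : Type*} {N : Type*} [AddCommGroup P] [Module R P] [AddCommGroup N] [Module R N]

/-- (L2) Linear maps out of a projective module lift along a surjective base change. -/
theorem exists_lift_linearMap (hs : Function.Surjective (algebraMap R S)) [Module.Projective R P]
    (g' : S ⊗[R] P →ₗ[S] S ⊗[R] N) : ∃ g : P →ₗ[R] N, g.baseChange S = g' := by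
  obtain ⟨g, hg⟩ := Module.projective_lifting_property (TensorProduct.mk R S N 1)
    ((g'.restrictScalars R) ∘ₗ (TensorProduct.mk R S P 1)) (mk_one_surjective S hs)
  refine ⟨g, ?_⟩
  apply TensorProduct.AlgebraTensorModule.ext
  intro a p
  have h1 : (1 : S) ⊗ₜ[R] g p = g' ((1 : S) ⊗ₜ[R] p) := LinearMap.congr_fun hg p
  have h2 : a ⊗ₜ[R] p = a • ((1 : S) ⊗ₜ[R] p) := by
    rw [TensorProduct.smul_tmul', smul_eq_mul, mul_one]
  rw [LinearMap.baseChange_tmul, h2, map_smul, ← h1, TensorProduct.smul_tmul', smul_eq_mul,
    mul_one]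

end LiftHom

section LiftIso

variable {P : Type*} {Q : Type*} [AddCommGroup P] [Module R P] [AddCommGroup Q] [Module R Q]

/-- (L2, iso version) Isomorphisms between projective modules lift along a surjection with
nilpotent kernel. -/
theorem exists_lift_linearEquiv (hs : Function.Surjective (algebraMap R S))
    (hn : IsNilpotent (RingHom.ker (algebraMap R S))) [Module.Projective R P]
    [Module.Projective R Q] (e' : S ⊗[R] P ≃ₗ[S] S ⊗[R] Q) :
    ∃ e : P ≃ₗ[R] Q, e.toLinearMap.baseChange S = e'.toLinearMap := by
  obtain ⟨g, hg⟩ := exists_lift_linearMap S hs e'.toLinearMap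
  have hbij : Function.Bijective g := by
    apply bijective_of_baseChange_bijective S hs hn
    rw [hg]
    exact e'.bijective
  exact ⟨LinearEquiv.ofBijective g hbij, hg⟩

end LiftIso

section EndNil

variable {M : Type v} [AddCommGroup M] [Module R M]

/-- If `φ ⊗ S = 0` then `φ (M) ⊆ I M`, `I = ker (R → S)`. -/
theorem apply_mem_smul_top_of_baseChange_eq_zero (hs : Function.Surjective (algebraMap R S))
    (φ : Module.End R M) (hφ : φ.baseChange S = 0) (m : M) :
    φ m ∈ (RingHom.ker (algebraMap R S)) • (⊤ : Submodule R M) := by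
  apply mem_smul_top_of_one_tmul_eq_zero S hs
  have := LinearMap.congr_fun hφ ((1 : S) ⊗ₜ[R] m)
  simpa using this

theorem range_pow_le_pow_smul_top (hs : Function.Surjective (algebraMap R S))
    (φ : Module.End R M) (hφ : φ.baseChange S = 0) (k : ℕ) :
    LinearMap.range (φ ^ k) ≤ ((RingHom.ker (algebraMap R S)) ^ k) • (⊤ : Submodule R M) := by
  induction k with
  | zero => simp
  | succ k ih =>
    rw [pow_succ, Module.End.mul_eq_comp, LinearMap.range_comp]
    have h1 : LinearMap.range φ ≤ (RingHom.ker (algebraMap R S)) • (⊤ : Submodule R M) := by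
      rintro _ ⟨m, rfl⟩
      exact apply_mem_smul_top_of_baseChange_eq_zero S hs φ hφ m
    refine (Submodule.map_mono h1).trans ?_
    rw [Submodule.map_smul'', Submodule.map_top, pow_succ', Submodule.mul_smul]
    exact Submodule.smul_mono le_rfl ih

/-- The kernel of `End_R M → End_S (S ⊗ M)` consists of nilpotent endomorphisms. -/
theorem isNilpotent_of_baseChange_eq_zero (hs : Function.Surjective (algebraMap R S))
    (hn : IsNilpotent (RingHom.ker (algebraMap R S)))
    (φ : Module.End R M) (hφ : φ.baseChange S = 0) : IsNilpotent φ := by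
  obtain ⟨k, hk⟩ := hn
  refine ⟨k, ?_⟩
  have h := range_pow_le_pow_smul_top S hs φ hφ k
  rw [hk] at h
  have h2 : LinearMap.range (φ ^ k) = ⊥ := by
    rw [eq_bot_iff]
    refine h.trans ?_
    rw [show (0 : Ideal R) = ⊥ from rfl, Submodule.bot_smul]
  exact LinearMap.range_eq_bot.mp h2

/-- Idempotent endomorphisms of `S ⊗ M`, `M` projective, lift to idempotent endomorphisms
of `M` (`R → S` surjective with nilpotent kernel). -/
theorem exists_idempotent_lift (hs : Function.Surjective (algebraMap R S))
    (hn : IsNilpotent (RingHom.ker (algebraMap R S))) [Module.Projective R M]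
    (e' : Module.End S (S ⊗[R] M)) (he' : IsIdempotentElem e') :
    ∃ e : Module.End R M, IsIdempotentElem e ∧ e.baseChange S = e' := by
  obtain ⟨e, he, hee'⟩ := exists_isIdempotentElem_eq_of_ker_isNilpotent
    (Module.End.baseChangeHom R S M : Module.End R M →+* Module.End S (S ⊗[R] M))
    (fun x hx => isNilpotent_of_baseChange_eq_zero S hs hn x (RingHom.mem_ker.mp hx)) e'
    (by
      obtain ⟨g, hg⟩ := exists_lift_linearMap S hs e'
      exact ⟨g, hg⟩) he'
  exact ⟨e, he, hee'⟩

end EndNil

section LiftProjective

/-- (L1) Finite projective modules lift along a surjection with nilpotent kernel. -/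
theorem exists_finite_projective_lift (hs : Function.Surjective (algebraMap R S))
    (hn : IsNilpotent (RingHom.ker (algebraMap R S)))
    (P' : Type*) [AddCommGroup P'] [Module S P'] [Module.Finite S P'] [Module.Projective S P'] :
    ∃ (P : Type u) (_ : AddCommGroup P) (_ : Module R P), Module.Finite R P ∧
      Module.Projective R P ∧ Nonempty (S ⊗[R] P ≃ₗ[S] P') := by
  classical
  obtain ⟨n, f, hf⟩ := Module.Finite.exists_fin' S P'
  let M := Fin n → R
  let π : S ⊗[R] M →ₗ[S] P' := f ∘ₗ (TensorProduct.piScalarRight R S S (Fin n)).toLinearMap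
  have hπ : Function.Surjective π := hf.comp (TensorProduct.piScalarRight R S S (Fin n)).surjective
  obtain ⟨s, hs'⟩ := Module.projective_lifting_property π LinearMap.id hπ
  have hπs : ∀ x, π (s x) = x := fun x => LinearMap.congr_fun hs' x
  let e' : Module.End S (S ⊗[R] M) := s ∘ₗ π
  have he' : IsIdempotentElem e' := by
    show e' * e' = e'
    ext x
    simp [e', hπs]
  obtain ⟨e, he, hee'⟩ := exists_idempotent_lift S hs hn e' he'
  let P := LinearMap.range e
  let ι : P →ₗ[R] M := P.subtype
  let ρ : M →ₗ[R] P := e.rangeRestrict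
  have hρι : ρ ∘ₗ ι = LinearMap.id := by
    ext ⟨x, m, rfl⟩ : 1
    apply Subtype.ext
    show e (e m) = e m
    exact LinearMap.congr_fun he.eq m
  have hιρ : ι ∘ₗ ρ = e := by
    ext m : 1
    rfl
  have h1 : ∀ y, ι.baseChange S (ρ.baseChange S y) = s (π y) := by
    intro y
    rw [← LinearMap.comp_apply, ← LinearMap.baseChange_comp, hιρ, hee']
    rfl
  have h2 : ∀ z, ρ.baseChange S (ι.baseChange S z) = z := by
    intro z
    rw [← LinearMap.comp_apply, ← LinearMap.baseChange_comp, hρι, LinearMap.baseChange_id]
    rfl
  refine ⟨P, inferInstance, inferInstance, ?_, ?_, ?_⟩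
  · exact Module.Finite.range e
  · exact Module.Projective.of_split ι ρ hρι
  · refine ⟨LinearEquiv.ofLinearMap (π ∘ₗ ι.baseChange S) (ρ.baseChange S ∘ₗ s) ?_ ?_⟩
    · refine LinearMap.ext fun x => ?_
      simp only [LinearMap.comp_apply, LinearMap.id_apply]
      rw [h1, hπs, hπs]
    · refine LinearMap.ext fun z => ?_
      simp only [LinearMap.comp_apply, LinearMap.id_apply]
      rw [← h1, h2, h2]

end LiftProjective

end Fermat.Agent.JAC.Lift.LiftProj87
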