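/-
Programme JAC, work package A6 (pure algebra half): invertible modules and units lift along a
surjection `R → S` with nilpotent kernel; `Pic R → Pic S` is bijective.
-/
import Mathlib
import Fermat.Agent.JAC.Lift.LiftProj87

set_option autoImplicit false

open TensorProduct

namespace Fermat.Agent.JAC.Lift.LiftPic87

open Fermat.Agent.JAC.Lift.NilNakayama87 Fermat.Agent.JAC.Lift.LiftProj87

universe u v w

variable {R : Type u} [CommRing R] (S : Type w) [CommRing S] [Algebra R S]

section Units

/-- Elements of a nilpotent ideal are nilpotent. -/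
theorem isNilpotent_of_mem {I : Ideal R} (hI : IsNilpotent I) {x : R} (hx : x ∈ I) :
    IsNilpotent x := by
  obtain ⟨k, hk⟩ := hI
  refine ⟨k, ?_⟩
  have := Ideal.pow_mem_pow hx k
  rw [hk] at this
  exact this

/-- (L5) An element whose image under a surjection with nilpotent kernel is a unit is a unit. -/
theorem isUnit_of_isUnit_algebraMap (hs : Function.Surjective (algebraMap R S))
    (hn : IsNilpotent (RingHom.ker (algebraMap R S))) {r : R}
    (hr : IsUnit (algebraMap R S r)) : IsUnit r := by
  obtain ⟨s', hs'⟩ := hr.exists_right_inv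
  obtain ⟨s, rfl⟩ := hs s'
  have hmem : r * s - 1 ∈ RingHom.ker (algebraMap R S) := by
    rw [RingHom.mem_ker, map_sub, map_mul, hs', map_one, sub_self]
  have hnil : IsNilpotent (r * s - 1) := isNilpotent_of_mem hn hmem
  have hu : IsUnit (r * s) := by
    have := hnil.isUnit_add_one
    rwa [sub_add_cancel] at this
  exact isUnit_of_mul_isUnit_left hu

/-- (L5) Units lift along a surjection with nilpotent kernel. -/
theorem exists_unit_lift (hs : Function.Surjective (algebraMap R S))
    (hn : IsNilpotent (RingHom.ker (algebraMap R S))) (u' : Sˣ) :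
    ∃ u : Rˣ, algebraMap R S u = u' := by
  obtain ⟨r, hr⟩ := hs u'
  have hu : IsUnit r := isUnit_of_isUnit_algebraMap S hs hn (hr ▸ u'.isUnit)
  exact ⟨hu.unit, hr⟩

end Units

section Invertible

/-- (L4) Invertible modules lift along a surjection with nilpotent kernel. -/
theorem exists_invertible_lift (hs : Function.Surjective (algebraMap R S))
    (hn : IsNilpotent (RingHom.ker (algebraMap R S)))
    (P' : Type*) [AddCommGroup P'] [Module S P'] [Module.Invertible S P'] :
    ∃ (P : Type u) (_ : AddCommGroup P) (_ : Module R P), Module.Invertible R P ∧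
      Nonempty (S ⊗[R] P ≃ₗ[S] P') := by
  obtain ⟨P, _, _, hPf, hPp, ⟨eP⟩⟩ := exists_finite_projective_lift S hs hn P'
  obtain ⟨Q, _, _, hQf, hQp, ⟨eQ⟩⟩ := exists_finite_projective_lift S hs hn (Module.Dual S P')
  let e' : S ⊗[R] (Q ⊗[R] P) ≃ₗ[S] S ⊗[R] R :=
    TensorProduct.AlgebraTensorModule.distribBaseChange R S Q P ≪≫ₗ
      TensorProduct.congr eQ eP ≪≫ₗ Module.Invertible.linearEquiv S P' ≪≫ₗ
      (TensorProduct.AlgebraTensorModule.rid R S S).symm
  obtain ⟨e, -⟩ := exists_lift_linearEquiv S hs hn e'
  exact ⟨P, inferInstance, inferInstance, Module.Invertible.right e, ⟨eP⟩⟩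

/-- An invertible `R`-module which becomes free after base change along a surjection with
nilpotent kernel is free. -/
theorem nonempty_linearEquiv_of_baseChange (hs : Function.Surjective (algebraMap R S))
    (hn : IsNilpotent (RingHom.ker (algebraMap R S)))
    {P Q : Type*} [AddCommGroup P] [Module R P] [AddCommGroup Q] [Module R Q]
    [Module.Projective R P] [Module.Projective R Q]
    (h : Nonempty (S ⊗[R] P ≃ₗ[S] S ⊗[R] Q)) : Nonempty (P ≃ₗ[R] Q) := by
  obtain ⟨e'⟩ := h
  obtain ⟨e, -⟩ := exists_lift_linearEquiv S hs hn e'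
  exact ⟨e⟩

open CommRing in
/-- `Pic R → Pic S` is bijective for a surjection `R → S` with nilpotent kernel. -/
theorem pic_mapAlgebra_bijective (hs : Function.Surjective (algebraMap R S))
    (hn : IsNilpotent (RingHom.ker (algebraMap R S))) :
    Function.Bijective (Pic.mapAlgebra R S) := by
  constructor
  · rw [injective_iff_map_eq_one]
    intro M hM
    rw [Pic.mapAlgebra_apply, Pic.mk_eq_one_iff] at hM
    obtain ⟨e'⟩ := hM
    have : Nonempty (M ≃ₗ[R] R) :=
      nonempty_linearEquiv_of_baseChange S hs hn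
        ⟨e' ≪≫ₗ (TensorProduct.AlgebraTensorModule.rid R S S).symm⟩
    rw [← Pic.mk_eq_one_iff, Pic.mk_eq_self] at this
    exact this
  · intro N
    obtain ⟨P, _, _, hP, ⟨eP⟩⟩ := exists_invertible_lift S hs hn N
    refine ⟨Pic.mk R P, ?_⟩
    rw [Pic.mapAlgebra_apply, Pic.mk_eq_iff]
    exact ⟨TensorProduct.AlgebraTensorModule.congr (LinearEquiv.refl S S)
      (Pic.mk.linearEquiv R P) ≪≫ₗ eP⟩

end Invertible

end Fermat.Agent.JAC.Lift.LiftPic87
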