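/-
Programme JAC (S25/S26/S27), work package A6 (formal smoothness), pure-algebra core.

`R → S` is a surjective ring map with nilpotent kernel
(e.g. `A ⊗ B → A ⊗ (B ⧸ J)` with `J` nilpotent).  All base changes are `S ⊗[R] _`.

* `one_tmul_eq_zero_iff`      : `1 ⊗ x = 0` in `S ⊗ M` iff `x ∈ ker • ⊤`.
* `exists_one_tmul`           : every element of `S ⊗ M` is `1 ⊗ m`.
* `surjective_of_baseChange`  : a linear map is surjective if its base change is.
* `bijective_of_baseChange`   : if moreover the target is projective, bijectivity descends.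
* `exists_lift_linearMap`     : `S`-linear maps between base changes lift (source projective).
* `exists_lift_linearEquiv`   : isomorphisms between base changes of projective modules lift.
* `exists_idempotent_lift`    : idempotent endomorphisms of `S ⊗ F` lift (`F` projective).
* `exists_projective_lift`    : finite projective `S`-modules lift to finite projective
                                `R`-modules.
* `invertible_of_baseChange`  : a projective module whose base change is invertible is invertible.
* `exists_invertible_lift`    : invertible `S`-modules lift to invertible `R`-modules.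
-/
import Mathlib

set_option autoImplicit false

open TensorProduct

universe u v w w'

namespace Fermat.Agent.JAC.Lift.NilLift67

section Basic

variable {R : Type u} [CommRing R] {S : Type v} [CommRing S] [Algebra R S]

/-- The `R`-algebra iso `R ⧸ ker ≃ S` for surjective `R → S`. -/
noncomputable def quotKerEquiv (hS : Function.Surjective (algebraMap R S)) :
    (R ⧸ RingHom.ker (algebraMap R S)) ≃ₐ[R] S :=
  Ideal.quotientKerAlgEquivOfSurjective (f := Algebra.ofId R S)
    (show Function.Surjective (Algebra.ofId R S) from hS)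

theorem quotKerEquiv_mk (hS : Function.Surjective (algebraMap R S)) (r : R) :
    quotKerEquiv hS (Ideal.Quotient.mk _ r) = algebraMap R S r := by
  unfold quotKerEquiv
  exact Ideal.quotientKerAlgEquivOfSurjective_mk _ _

/-- For `R → S` surjective with kernel `I`: `S ⊗ M ≃ M ⧸ I M`. -/
noncomputable def tensorEquivQuot (hS : Function.Surjective (algebraMap R S))
    (M : Type w) [AddCommGroup M] [Module R M] :
    S ⊗[R] M ≃ₗ[R] M ⧸ (RingHom.ker (algebraMap R S)) • (⊤ : Submodule R M) :=
  (TensorProduct.congr (quotKerEquiv hS).symm.toLinearEquiv (LinearEquiv.refl R M)) ≪≫ₗ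
  TensorProduct.quotTensorEquivQuotSMul M (RingHom.ker (algebraMap R S))

theorem tensorEquivQuot_one_tmul (hS : Function.Surjective (algebraMap R S))
    {M : Type w} [AddCommGroup M] [Module R M] (x : M) :
    tensorEquivQuot hS M ((1 : S) ⊗ₜ[R] x) = Submodule.Quotient.mk x := by
  have h1 : (quotKerEquiv hS).symm (1 : S) = Ideal.Quotient.mk _ (1 : R) := by
    rw [AlgEquiv.symm_apply_eq, quotKerEquiv_mk, map_one]
  unfold tensorEquivQuot
  rw [LinearEquiv.trans_apply, TensorProduct.congr_tmul]
  change (quotTensorEquivQuotSMul M _) (((quotKerEquiv hS).symm (1 : S)) ⊗ₜ[R] x) = _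
  rw [h1, TensorProduct.quotTensorEquivQuotSMul_mk_tmul, one_smul]

/-- `1 ⊗ x = 0` in `S ⊗ M` iff `x ∈ I M`, `I = ker (R → S)`. -/
theorem one_tmul_eq_zero_iff (hS : Function.Surjective (algebraMap R S))
    {M : Type w} [AddCommGroup M] [Module R M] (x : M) :
    (1 : S) ⊗ₜ[R] x = 0 ↔ x ∈ (RingHom.ker (algebraMap R S)) • (⊤ : Submodule R M) := by
  rw [← (tensorEquivQuot hS M).map_eq_zero_iff, tensorEquivQuot_one_tmul,
    Submodule.Quotient.mk_eq_zero]

/-- Every element of `S ⊗ M` is of the form `1 ⊗ m` when `R → S` is surjective. -/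
theorem exists_one_tmul (hS : Function.Surjective (algebraMap R S))
    {M : Type w} [AddCommGroup M] [Module R M] (z : S ⊗[R] M) :
    ∃ m : M, z = (1 : S) ⊗ₜ[R] m := by
  induction z using TensorProduct.induction_on with
  | zero => exact ⟨0, by simp⟩
  | tmul s m =>
    obtain ⟨r, rfl⟩ := hS s
    refine ⟨r • m, ?_⟩
    rw [TensorProduct.tmul_smul, TensorProduct.smul_tmul', Algebra.algebraMap_eq_smul_one]
  | add z₁ z₂ h₁ h₂ =>
    obtain ⟨m₁, rfl⟩ := h₁
    obtain ⟨m₂, rfl⟩ := h₂
    exact ⟨m₁ + m₂, by rw [TensorProduct.tmul_add]⟩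

/-- A submodule with `K ≤ I K`, `I` nilpotent, is zero. -/
theorem eq_bot_of_le_smul {I : Ideal R} (hI : IsNilpotent I) {M : Type w} [AddCommGroup M]
    [Module R M] (K : Submodule R M) (h : K ≤ I • K) : K = ⊥ := by
  obtain ⟨n, hn⟩ := hI
  have key : ∀ k : ℕ, K ≤ I ^ k • K := by
    intro k
    induction k with
    | zero => simp
    | succ k ih =>
      calc K ≤ I • K := h
        _ ≤ I • (I ^ k • K) := Submodule.smul_mono le_rfl ih
        _ = I ^ (k + 1) • K := by rw [← Submodule.mul_smul, ← pow_succ']
  have := key n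
  rw [hn] at this
  simpa using this

/-- A submodule with `N + I M = M`, `I` nilpotent, is everything. -/
theorem eq_top_of_sup_smul_top {I : Ideal R} (hI : IsNilpotent I) {M : Type w} [AddCommGroup M]
    [Module R M] (N : Submodule R M) (h : N ⊔ I • (⊤ : Submodule R M) = ⊤) : N = ⊤ := by
  obtain ⟨n, hn⟩ := hI
  have key : ∀ k : ℕ, N ⊔ I ^ k • (⊤ : Submodule R M) = ⊤ := by
    intro k
    induction k with
    | zero => simp
    | succ k ih =>
      rw [eq_top_iff]
      calc (⊤ : Submodule R M) = N ⊔ I • (⊤ : Submodule R M) := h.symm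
        _ = N ⊔ I • (N ⊔ I ^ k • (⊤ : Submodule R M)) := by rw [ih]
        _ = N ⊔ (I • N ⊔ I ^ (k + 1) • (⊤ : Submodule R M)) := by
            rw [Submodule.smul_sup, ← Submodule.mul_smul, ← pow_succ']
        _ ≤ N ⊔ I ^ (k + 1) • (⊤ : Submodule R M) := by
            refine sup_le le_sup_left (sup_le ?_ le_sup_right)
            exact le_trans Submodule.smul_le_right le_sup_left
  have := key n
  rw [hn] at this
  simpa using this

end Basic

section Maps

variable {R : Type u} [CommRing R] {S : Type v} [CommRing S] [Algebra R S]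
variable {P : Type w} {Q : Type w'} [AddCommGroup P] [AddCommGroup Q] [Module R P] [Module R Q]

/-- (N2a) Surjectivity descends along a nilpotent thickening. -/
theorem surjective_of_baseChange (hS : Function.Surjective (algebraMap R S))
    (hI : IsNilpotent (RingHom.ker (algebraMap R S))) (f : P →ₗ[R] Q)
    (h : Function.Surjective (f.baseChange S)) : Function.Surjective f := by
  rw [← LinearMap.range_eq_top]
  apply eq_top_of_sup_smul_top hI
  rw [eq_top_iff]
  intro q _
  obtain ⟨z, hz⟩ := h ((1 : S) ⊗ₜ[R] q)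
  obtain ⟨p, rfl⟩ := exists_one_tmul hS z
  rw [LinearMap.baseChange_tmul] at hz
  have h0 : (1 : S) ⊗ₜ[R] (q - f p) = 0 := by rw [TensorProduct.tmul_sub, hz, sub_self]
  rw [one_tmul_eq_zero_iff hS] at h0
  have : q = f p + (q - f p) := by abel
  rw [this]
  exact Submodule.add_mem_sup (LinearMap.mem_range_self f p) h0

/-- (N2b) Bijectivity descends along a nilpotent thickening when the target is projective. -/
theorem bijective_of_baseChange [Module.Projective R Q]
    (hS : Function.Surjective (algebraMap R S))
    (hI : IsNilpotent (RingHom.ker (algebraMap R S))) (f : P →ₗ[R] Q)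
    (h : Function.Bijective (f.baseChange S)) : Function.Bijective f := by
  have hsurj := surjective_of_baseChange hS hI f h.2
  refine ⟨?_, hsurj⟩
  obtain ⟨g, hg⟩ := Module.projective_lifting_property f LinearMap.id hsurj
  rw [← LinearMap.ker_eq_bot]
  apply eq_bot_of_le_smul hI
  intro k hk
  rw [LinearMap.mem_ker] at hk
  have h0 : (1 : S) ⊗ₜ[R] k = 0 := by
    apply h.1
    rw [LinearMap.baseChange_tmul, hk, TensorProduct.tmul_zero, map_zero]
  rw [one_tmul_eq_zero_iff hS] at h0
  -- the projection onto the kernel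
  let π : P →ₗ[R] P := LinearMap.id - g ∘ₗ f
  have hπk : ∀ x, π x ∈ LinearMap.ker f := by
    intro x
    have := LinearMap.congr_fun hg (f x)
    simp only [LinearMap.coe_comp, Function.comp_apply, LinearMap.id_coe, id_eq] at this
    simp [π, LinearMap.mem_ker, this]
  have hπid : π k = k := by simp [π, hk]
  rw [← hπid]
  refine Submodule.smul_induction_on h0 ?_ ?_
  · intro a ha x _
    rw [map_smul]
    exact Submodule.smul_mem_smul ha (hπk x)
  · intro x y hx hy
    rw [map_add]
    exact add_mem hx hy

/-- Two `S`-linear maps out of `S ⊗ P` agreeing on the `1 ⊗ p` are equal. -/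
theorem baseChange_hom_ext {N : Type*} [AddCommGroup N] [Module S N]
    {g h : S ⊗[R] P →ₗ[S] N} (H : ∀ p : P, g ((1 : S) ⊗ₜ[R] p) = h ((1 : S) ⊗ₜ[R] p)) :
    g = h := by
  refine LinearMap.ext fun z => ?_
  induction z using TensorProduct.induction_on with
  | zero => simp
  | tmul s p =>
    have : s ⊗ₜ[R] p = s • ((1 : S) ⊗ₜ[R] p) := by
      rw [TensorProduct.smul_tmul', smul_eq_mul, mul_one]
    rw [this, map_smul, map_smul, H]
  | add z₁ z₂ h₁ h₂ => rw [map_add, map_add, h₁, h₂]

/-- Lifting of linear maps: every `S`-linear map `S ⊗ P → S ⊗ Q` with `P` projective is the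
base change of an `R`-linear map (only surjectivity of `R → S` is needed). -/
theorem exists_lift_linearMap [Module.Projective R P]
    (hS : Function.Surjective (algebraMap R S)) (g : S ⊗[R] P →ₗ[S] S ⊗[R] Q) :
    ∃ f : P →ₗ[R] Q, f.baseChange S = g := by
  have hsurj : Function.Surjective (TensorProduct.mk R S Q 1) := by
    intro z
    obtain ⟨m, rfl⟩ := exists_one_tmul hS z
    exact ⟨m, rfl⟩
  obtain ⟨f, hf⟩ := Module.projective_lifting_property (TensorProduct.mk R S Q 1)
    ((g.restrictScalars R) ∘ₗ (TensorProduct.mk R S P 1)) hsurj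
  refine ⟨f, baseChange_hom_ext fun p => ?_⟩
  rw [LinearMap.baseChange_tmul]
  exact LinearMap.congr_fun hf p

/-- Lifting of isomorphisms between projective modules along a nilpotent thickening. -/
theorem exists_lift_linearEquiv [Module.Projective R P] [Module.Projective R Q]
    (hS : Function.Surjective (algebraMap R S))
    (hI : IsNilpotent (RingHom.ker (algebraMap R S))) (e : S ⊗[R] P ≃ₗ[S] S ⊗[R] Q) :
    ∃ f : P ≃ₗ[R] Q, f.toLinearMap.baseChange S = e.toLinearMap := by
  obtain ⟨f, hf⟩ := exists_lift_linearMap hS e.toLinearMap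
  have hbij : Function.Bijective f := by
    apply bijective_of_baseChange hS hI
    rw [hf]
    exact e.bijective
  exact ⟨LinearEquiv.ofBijective f hbij, hf⟩

end Maps

section Idempotents

variable {R : Type u} [CommRing R] {S : Type v} [CommRing S] [Algebra R S]

/-- Base change of endomorphisms as a ring hom. -/
noncomputable def endBaseChange (R : Type u) [CommRing R] (S : Type v) [CommRing S] [Algebra R S]
    (F : Type w) [AddCommGroup F] [Module R F] :
    Module.End R F →+* Module.End S (S ⊗[R] F) where
  toFun x := x.baseChange S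
  map_one' := LinearMap.baseChange_id
  map_mul' x y := LinearMap.baseChange_comp y x
  map_zero' := LinearMap.baseChange_zero
  map_add' x y := LinearMap.baseChange_add x y

theorem endBaseChange_apply (F : Type w) [AddCommGroup F] [Module R F] (x : Module.End R F) :
    endBaseChange R S F x = x.baseChange S := rfl

/-- An endomorphism whose base change vanishes is nilpotent. -/
theorem isNilpotent_of_baseChange_eq_zero {F : Type w} [AddCommGroup F] [Module R F]
    (hS : Function.Surjective (algebraMap R S))
    (hI : IsNilpotent (RingHom.ker (algebraMap R S))) (x : Module.End R F)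
    (hx : x.baseChange S = 0) : IsNilpotent x := by
  set I := RingHom.ker (algebraMap R S) with hIdef
  have h1 : LinearMap.range x ≤ I • (⊤ : Submodule R F) := by
    rintro _ ⟨m, rfl⟩
    rw [← one_tmul_eq_zero_iff hS, ← LinearMap.baseChange_tmul, hx, LinearMap.zero_apply]
  have key : ∀ k : ℕ, LinearMap.range (x ^ k) ≤ I ^ k • (⊤ : Submodule R F) := by
    intro k
    induction k with
    | zero => simp
    | succ k ih =>
      rw [pow_succ', Module.End.mul_eq_comp, LinearMap.range_comp]
      calc Submodule.map x (LinearMap.range (x ^ k))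
          ≤ Submodule.map x (I ^ k • (⊤ : Submodule R F)) := Submodule.map_mono ih
        _ = I ^ k • Submodule.map x ⊤ := Submodule.map_smul'' _ _ _
        _ ≤ I ^ k • (I • (⊤ : Submodule R F)) := by
            refine Submodule.smul_mono le_rfl ?_
            rw [Submodule.map_top]; exact h1
        _ = I ^ (k + 1) • (⊤ : Submodule R F) := by rw [← Submodule.mul_smul, ← pow_succ]
  obtain ⟨n, hn⟩ := hI
  refine ⟨n, ?_⟩
  have := key n
  rw [hn] at this
  rw [← LinearMap.range_eq_bot]
  simpa using this

/-- Idempotent endomorphisms of `S ⊗ F` lift to idempotent endomorphisms of a projective `F`. -/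
theorem exists_idempotent_lift {F : Type w} [AddCommGroup F] [Module R F] [Module.Projective R F]
    (hS : Function.Surjective (algebraMap R S))
    (hI : IsNilpotent (RingHom.ker (algebraMap R S)))
    (eb : Module.End S (S ⊗[R] F)) (heb : IsIdempotentElem eb) :
    ∃ E : Module.End R F, IsIdempotentElem E ∧ E.baseChange S = eb := by
  have hrange : eb ∈ (endBaseChange R S F).range := by
    obtain ⟨f, hf⟩ := exists_lift_linearMap hS eb
    exact ⟨f, hf⟩
  have hker : ∀ x ∈ RingHom.ker (endBaseChange R S F), IsNilpotent x := by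
    intro x hx
    exact isNilpotent_of_baseChange_eq_zero hS hI x hx
  have key := @exists_isIdempotentElem_eq_of_ker_isNilpotent (Module.End R F)
    (Module.End S (S ⊗[R] F)) _ _ (endBaseChange R S F)
  obtain ⟨E, hE, hEb⟩ := key hker eb hrange heb
  exact ⟨E, hE, hEb⟩

theorem subtype_comp_rangeRestrict {F : Type w} [AddCommGroup F] [Module R F]
    (E : Module.End R F) : (LinearMap.range E).subtype ∘ₗ E.rangeRestrict = E := by
  ext x; rfl

theorem rangeRestrict_comp_subtype {F : Type w} [AddCommGroup F] [Module R F]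
    (E : Module.End R F) (hE : IsIdempotentElem E) :
    E.rangeRestrict ∘ₗ (LinearMap.range E).subtype = LinearMap.id := by
  ext ⟨y, x, rfl⟩
  have : E (E x) = E x := LinearMap.congr_fun hE.eq x
  simp [this]

/-- If `P` is a retract of `F` (over `R`) and `Pb` a retract of `S ⊗ F` (over `S`) with the same
idempotent on `S ⊗ F`, then `S ⊗ P ≃ Pb`. -/
theorem nonempty_equiv_of_retracts {F : Type w} {P : Type w'} {Pb : Type*}
    [AddCommGroup F] [Module R F] [AddCommGroup P] [Module R P] [AddCommGroup Pb] [Module S Pb]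
    (i : P →ₗ[R] F) (p : F →ₗ[R] P) (hpi : p ∘ₗ i = LinearMap.id)
    (π : S ⊗[R] F →ₗ[S] Pb) (s : Pb →ₗ[S] S ⊗[R] F) (hs : π ∘ₗ s = LinearMap.id)
    (h : (i ∘ₗ p).baseChange S = s ∘ₗ π) : Nonempty (S ⊗[R] P ≃ₗ[S] Pb) := by
  have h1 : i.baseChange S ∘ₗ p.baseChange S = s ∘ₗ π := by
    rw [← LinearMap.baseChange_comp, h]
  have h2 : p.baseChange S ∘ₗ i.baseChange S = LinearMap.id := by
    rw [← LinearMap.baseChange_comp, hpi, LinearMap.baseChange_id]
  refine ⟨LinearEquiv.ofLinearMap (π ∘ₗ i.baseChange S) (p.baseChange S ∘ₗ s) ?_ ?_⟩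
  · calc (π ∘ₗ i.baseChange S) ∘ₗ (p.baseChange S ∘ₗ s)
        = π ∘ₗ (i.baseChange S ∘ₗ p.baseChange S) ∘ₗ s := by simp only [LinearMap.comp_assoc]
      _ = (π ∘ₗ s) ∘ₗ (π ∘ₗ s) := by rw [h1]; simp only [LinearMap.comp_assoc]
      _ = LinearMap.id := by rw [hs, LinearMap.id_comp]
  · calc (p.baseChange S ∘ₗ s) ∘ₗ (π ∘ₗ i.baseChange S)
        = p.baseChange S ∘ₗ (s ∘ₗ π) ∘ₗ i.baseChange S := by simp only [LinearMap.comp_assoc]
      _ = (p.baseChange S ∘ₗ i.baseChange S) ∘ₗ (p.baseChange S ∘ₗ i.baseChange S) := by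
          rw [← h1]; simp only [LinearMap.comp_assoc]
      _ = LinearMap.id := by rw [h2, LinearMap.id_comp]

/-- (N1) Finite projective modules lift along a nilpotent thickening. -/
theorem exists_projective_lift (hS : Function.Surjective (algebraMap R S))
    (hI : IsNilpotent (RingHom.ker (algebraMap R S)))
    (Pb : Type w) [AddCommGroup Pb] [Module S Pb] [Module.Finite S Pb] [Module.Projective S Pb] :
    ∃ (P : Type u) (_ : AddCommGroup P) (_ : Module R P), Module.Finite R P ∧
      Module.Projective R P ∧ Nonempty (S ⊗[R] P ≃ₗ[S] Pb) := by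
  classical
  obtain ⟨n, π0, hπ0⟩ := Module.Finite.exists_fin' S Pb
  let φ : S ⊗[R] (Fin n → R) ≃ₗ[S] (Fin n → S) := TensorProduct.piScalarRight R S S (Fin n)
  let π : S ⊗[R] (Fin n → R) →ₗ[S] Pb := π0 ∘ₗ φ.toLinearMap
  have hπ : Function.Surjective π := hπ0.comp φ.surjective
  obtain ⟨s, hs⟩ := Module.projective_lifting_property π LinearMap.id hπ
  have heb : IsIdempotentElem (s ∘ₗ π : Module.End S (S ⊗[R] (Fin n → R))) := by
    change (s ∘ₗ π) ∘ₗ (s ∘ₗ π) = s ∘ₗ π
    rw [LinearMap.comp_assoc, ← LinearMap.comp_assoc π s π, hs, LinearMap.id_comp]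
  obtain ⟨E, hE, hEb⟩ := exists_idempotent_lift hS hI _ heb
  refine ⟨LinearMap.range E, inferInstance, inferInstance, Module.Finite.range E,
    Module.Projective.of_split _ _ (rangeRestrict_comp_subtype E hE), ?_⟩
  refine nonempty_equiv_of_retracts _ _ (rangeRestrict_comp_subtype E hE) π s hs ?_
  rw [subtype_comp_rangeRestrict, hEb]

end Idempotents

section Invertible

variable {R : Type u} [CommRing R] {S : Type v} [CommRing S] [Algebra R S]

/-- (N3) A projective `R`-module whose base change to `S` is invertible is invertible. -/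
theorem invertible_of_baseChange {P : Type w} [AddCommGroup P] [Module R P]
    [Module.Projective R P] (hS : Function.Surjective (algebraMap R S))
    (hI : IsNilpotent (RingHom.ker (algebraMap R S))) [Module.Invertible S (S ⊗[R] P)] :
    Module.Invertible R P := by
  obtain ⟨Q, _, _, _, hQproj, ⟨eQ⟩⟩ :=
    exists_projective_lift hS hI (Module.Dual S (S ⊗[R] P))
  let e : S ⊗[R] (P ⊗[R] Q) ≃ₗ[S] S ⊗[R] R :=
    AlgebraTensorModule.distribBaseChange R S P Q ≪≫ₗ
    TensorProduct.congr (LinearEquiv.refl S (S ⊗[R] P)) eQ ≪≫ₗ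
    TensorProduct.comm S _ _ ≪≫ₗ
    Module.Invertible.linearEquiv S (S ⊗[R] P) ≪≫ₗ
    (AlgebraTensorModule.rid R S S).symm
  obtain ⟨f, -⟩ := exists_lift_linearEquiv hS hI e
  exact Module.Invertible.left f

/-- Invertible modules lift along a nilpotent thickening. -/
theorem exists_invertible_lift (hS : Function.Surjective (algebraMap R S))
    (hI : IsNilpotent (RingHom.ker (algebraMap R S)))
    (Pb : Type w) [AddCommGroup Pb] [Module S Pb] [Module.Invertible S Pb] :
    ∃ (P : Type u) (_ : AddCommGroup P) (_ : Module R P), Module.Invertible R P ∧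
      Nonempty (S ⊗[R] P ≃ₗ[S] Pb) := by
  obtain ⟨P, _, _, _, hP, ⟨e⟩⟩ := exists_projective_lift hS hI Pb
  have : Module.Invertible S (S ⊗[R] P) := Module.Invertible.congr e.symm
  exact ⟨P, inferInstance, inferInstance, invertible_of_baseChange hS hI, ⟨e⟩⟩

end Invertible

end Fermat.Agent.JAC.Lift.NilLift67
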